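import Mathlib

/-!
# S23: linear algebra over `ℤ ⊂ ℚ ⊂ ℂ`

* `exists_rat_coords`, `rat_coords_eq_zero`: rational coordinates of finitely many complex numbers.
* `linearIndependent_of_integral_action`: endomorphisms preserving an integral structure which are
  `ℤ`-linearly independent are `ℂ`-linearly independent.
* `span_dual_lattice_eq_top`: the dual lattice of a full lattice of functionals spans.
-/

set_option autoImplicit false

namespace Fermat.Agent.S23

open Module

/-- **ℚ-coordinates**: finitely many complex numbers are rational combinations of a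
`ℚ`-linearly independent family. -/
theorem exists_rat_coords {A : Type*} [Finite A] (z : A → ℂ) :
    ∃ (k : ℕ) (u : Fin k → ℂ) (q : A → Fin k → ℚ), LinearIndependent ℚ u ∧
      ∀ a, z a = ∑ j, (q a j : ℂ) * u j := by
  classical
  let U : Submodule ℚ ℂ := Submodule.span ℚ (Set.range z)
  have : FiniteDimensional ℚ U := FiniteDimensional.span_of_finite ℚ (Set.finite_range z)
  let b := Module.finBasis ℚ U
  have hz : ∀ a, z a ∈ U := fun a => Submodule.subset_span ⟨a, rfl⟩
  refine ⟨finrank ℚ U, fun j => (b j : ℂ), fun a j => b.repr ⟨z a, hz a⟩ j, ?_, fun a => ?_⟩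
  · have := b.linearIndependent
    exact this.map' U.subtype (Submodule.ker_subtype U)
  · have h := b.sum_repr ⟨z a, hz a⟩
    have h2 := congrArg (fun x : U => (x : ℂ)) h
    simp only [Submodule.coe_sum, Submodule.coe_smul] at h2
    rw [← h2]
    refine Finset.sum_congr rfl fun j _ => ?_
    rw [Rat.smul_def]

/-- Uniqueness of rational coordinates. -/
theorem rat_coords_eq_zero {k : ℕ} {u : Fin k → ℂ} (hu : LinearIndependent ℚ u) (q : Fin k → ℚ)
    (h : ∑ j, (q j : ℂ) * u j = 0) : ∀ j, q j = 0 := by
  rw [Fintype.linearIndependent_iff] at hu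
  refine hu q ?_
  rw [← h]
  refine Finset.sum_congr rfl fun j _ => ?_
  rw [Rat.smul_def]

section Rank

variable {V : Type*} [AddCommGroup V] [Module ℂ V] {X : Type*}

/-- **Rank lemma.** Let `E : V × V → (X → ℂ)` be injective and linear, such that the vectors with
integral image span `V × V`.  If the endomorphisms `s i` of `V` (acting diagonally on `V × V`)
preserve integrality and are `ℤ`-linearly independent, then they are `ℂ`-linearly independent. -/
theorem linearIndependent_of_integral_action
    (E : (V × V) →ₗ[ℂ] (X → ℂ)) (hE : Function.Injective E)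
    (hspan : Submodule.span ℂ {v : V × V | ∀ x, ∃ m : ℤ, E v x = m} = ⊤)
    {r : ℕ} (s : Fin r → Module.End ℂ V)
    (hs : ∀ i, ∀ v : V × V, (∀ x, ∃ m : ℤ, E v x = m) →
      ∀ x, ∃ m : ℤ, E (s i v.1, s i v.2) x = m)
    (hind : LinearIndependent ℤ s) : LinearIndependent ℂ s := by
  classical
  let _ : Module ℚ (Module.End ℂ V) := Module.compHom (Module.End ℂ V) (algebraMap ℚ ℂ)
  have hsmul : ∀ (a : ℚ) (T : Module.End ℂ V), a • T = (a : ℂ) • T := fun _ _ => rfl
  have : IsScalarTower ℤ ℚ (Module.End ℂ V) := ⟨fun a b T => by
    rw [hsmul, hsmul, zsmul_eq_mul, ← Int.cast_smul_eq_zsmul ℂ a ((b : ℂ) • T), smul_smul]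
    push_cast
    rfl⟩
  have hindQ : LinearIndependent ℚ s := (LinearIndependent.iff_fractionRing ℤ ℚ).mp hind
  rw [Fintype.linearIndependent_iff] at hindQ ⊢
  intro c hc
  obtain ⟨k, u, q, hu, hcq⟩ := exists_rat_coords c
  -- the rational combinations
  set S : Fin k → Module.End ℂ V := fun j => ∑ i, (q i j : ℂ) • s i with hS
  have hsum : ∑ j, u j • S j = 0 := by
    rw [← hc]
    simp only [hS, Finset.smul_sum, smul_smul]
    rw [Finset.sum_comm]
    refine Finset.sum_congr rfl fun i _ => ?_
    rw [← Finset.sum_smul, hcq i]
    congr 1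
    refine Finset.sum_congr rfl fun j _ => ?_
    ring
  have hSzero : ∀ j, S j = 0 := by
    intro j
    -- it suffices to kill the diagonal action on `V × V`
    have hker : ∀ v : V × V, (S j v.1, S j v.2) = (0 : V × V) := by
      intro v
      have hv : v ∈ Submodule.span ℂ {v : V × V | ∀ x, ∃ m : ℤ, E v x = m} := by
        rw [hspan]; trivial
      induction hv using Submodule.span_induction with
      | mem v hv =>
        apply hE
        rw [map_zero]
        funext x
        -- integers `m i` with `E (s i v) x = m i`
        choose m hm using fun i => hs i v hv x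
        have hEx : ∀ j', E (S j' v.1, S j' v.2) x = ((∑ i, q i j' * (m i : ℚ) : ℚ) : ℂ) := by
          intro j'
          have : (S j' v.1, S j' v.2) = ∑ i, (q i j' : ℂ) • (s i v.1, s i v.2) := by
            simp only [hS, LinearMap.sum_apply, LinearMap.smul_apply, Prod.smul_mk]
            ext
            · simp [Prod.fst_sum]
            · simp [Prod.snd_sum]
          rw [this, map_sum, Finset.sum_apply]
          push_cast
          refine Finset.sum_congr rfl fun i _ => ?_
          rw [map_smul, Pi.smul_apply, hm i, smul_eq_mul]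
        have h0 : ∑ j', ((∑ i, q i j' * (m i : ℚ) : ℚ) : ℂ) * u j' = 0 := by
          have h1 : E (∑ j', u j' • (S j' v.1, S j' v.2)) x = 0 := by
            have : ∑ j', u j' • (S j' v.1, S j' v.2) = (0 : V × V) := by
              have e1 := congrArg (fun T : Module.End ℂ V => T v.1) hsum
              have e2 := congrArg (fun T : Module.End ℂ V => T v.2) hsum
              simp only [LinearMap.sum_apply, LinearMap.smul_apply, LinearMap.zero_apply] at e1 e2
              ext
              · simpa [Prod.fst_sum] using e1
              · simpa [Prod.snd_sum] using e2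
            rw [this, map_zero]; rfl
          rw [map_sum, Finset.sum_apply] at h1
          rw [← h1]
          refine Finset.sum_congr rfl fun j' _ => ?_
          rw [map_smul, Pi.smul_apply, hEx j', smul_eq_mul, mul_comm]
        have := rat_coords_eq_zero hu _ h0 j
        rw [hEx j, this]
        simp
      | zero => simp
      | add v w _ _ hv hw =>
        have : (S j (v + w).1, S j (v + w).2) = (S j v.1, S j v.2) + (S j w.1, S j w.2) := by
          ext <;> simp
        rw [this, hv, hw, add_zero]
      | smul a v _ hv =>
        have : (S j (a • v).1, S j (a • v).2) = a • (S j v.1, S j v.2) := by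
          ext <;> simp
        rw [this, hv, smul_zero]
    ext f
    have := congrArg Prod.fst (hker (f, 0))
    simpa using this
  -- rational independence
  have hq : ∀ j i, q i j = 0 := by
    intro j
    refine hindQ (fun i => q i j) ?_
    rw [← hSzero j, hS]
    exact Finset.sum_congr rfl fun i _ => hsmul _ _
  intro i
  rw [hcq i]
  simp [hq]

end Rank

section DualLattice

variable {V : Type*} [AddCommGroup V] [Module ℂ V]

/-- **Dual lattice lemma.** Let `M` be a finitely generated group of linear functionals on a
finite dimensional complex vector space `V` which separates the points of `V` and in which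
`ℤ`-linearly independent families are `ℂ`-linearly independent.  Then the vectors on which all
elements of `M` take integral values span `V`. -/
theorem span_dual_lattice_eq_top (M : Submodule ℤ (Module.Dual ℂ V)) (hM : M.FG)
    (hsep : ∀ f : V, (∀ l ∈ M, l f = 0) → f = 0)
    (hind : ∀ (ι : Type) [Fintype ι] (m : ι → Module.Dual ℂ V), (∀ i, m i ∈ M) →
      LinearIndependent ℤ m → LinearIndependent ℂ m) :
    Submodule.span ℂ {f : V | ∀ l ∈ M, ∃ k : ℤ, l f = k} = ⊤ := by
  classical
  have : Module.Finite ℤ M := Module.Finite.iff_fg.mpr hM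
  have : Module.Free ℤ M := Module.free_of_finite_type_torsion_free'
  let b := Module.Free.chooseBasis ℤ M
  let ι := Module.Free.ChooseBasisIndex ℤ M
  let β : ι → Module.Dual ℂ V := fun i => (b i : Module.Dual ℂ V)
  have hβM : ∀ i, β i ∈ M := fun i => (b i).2
  have hβZ : LinearIndependent ℤ β :=
    b.linearIndependent.map' M.subtype (Submodule.ker_subtype M)
  -- reindex by `Fin`
  let e : ι ≃ Fin (Fintype.card ι) := Fintype.equivFin ι
  have hβC : LinearIndependent ℂ β := by
    have h1 : LinearIndependent ℤ (β ∘ e.symm) := hβZ.comp _ e.symm.injective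
    have h2 := hind (Fin (Fintype.card ι)) (β ∘ e.symm) (fun i => hβM _) h1
    have h3 := h2.comp _ e.injective
    have : (β ∘ e.symm) ∘ e = β := by ext i; simp
    rwa [this] at h3
  -- `M ⊆ span ℤ β`
  have hMβ : ∀ l ∈ M, ∃ n : ι → ℤ, l = ∑ i, n i • β i := by
    intro l hl
    refine ⟨fun i => b.repr ⟨l, hl⟩ i, ?_⟩
    have h := b.sum_repr ⟨l, hl⟩
    have h2 := congrArg (fun x : M => (x : Module.Dual ℂ V)) h
    simp only [Submodule.coe_sum, Submodule.coe_smul] at h2
    exact h2.symm
  -- `β` spans the dual
  have hβspan : ⊤ ≤ Submodule.span ℂ (Set.range β) := by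
    have hco : (Submodule.span ℂ (Set.range β)).dualCoannihilator = ⊥ := by
      rw [eq_bot_iff]
      intro f hf
      rw [Submodule.mem_dualCoannihilator] at hf
      rw [Submodule.mem_bot]
      refine hsep f fun l hl => ?_
      obtain ⟨n, rfl⟩ := hMβ l hl
      rw [LinearMap.sum_apply]
      refine Finset.sum_eq_zero fun i _ => ?_
      rw [LinearMap.smul_apply, hf (β i) (Submodule.subset_span ⟨i, rfl⟩), smul_zero]
    have hfd : FiniteDimensional ℂ (Submodule.span ℂ (Set.range β)) :=
      FiniteDimensional.span_of_finite ℂ (Set.finite_range β)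
    have := Subspace.dualCoannihilator_dualAnnihilator_eq (W := Submodule.span ℂ (Set.range β))
    rw [hco, Submodule.dualAnnihilator_bot] at this
    rw [this]
  -- `V` is finite dimensional
  have hfdV : FiniteDimensional ℂ V := by
    refine FiniteDimensional.of_injective (LinearMap.pi β) ?_
    refine (injective_iff_map_eq_zero _).mpr fun f hf => hsep f fun l hl => ?_
    obtain ⟨n, rfl⟩ := hMβ l hl
    rw [LinearMap.sum_apply]
    refine Finset.sum_eq_zero fun i _ => ?_
    have : β i f = 0 := congrFun hf i
    rw [LinearMap.smul_apply, this, smul_zero]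
  let B : Basis ι ℂ (Module.Dual ℂ V) := Basis.mk hβC hβspan
  have hB : ∀ i, B i = β i := fun i => Basis.mk_apply hβC hβspan i
  -- the dual vectors
  let w : ι → V := fun i => (Module.evalEquiv ℂ V).symm (B.dualBasis i)
  have hw : ∀ i j, β j (w i) = if i = j then 1 else 0 := by
    intro i j
    have h1 : β j (w i) = (Module.evalEquiv ℂ V (w i)) (β j) := rfl
    rw [h1, LinearEquiv.apply_symm_apply, ← hB j, Basis.dualBasis_apply_self]
    by_cases hij : i = j
    · rw [if_pos hij, if_pos hij.symm]
    · rw [if_neg hij, if_neg (Ne.symm hij)]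
  have hwmem : ∀ i, w i ∈ {f : V | ∀ l ∈ M, ∃ k : ℤ, l f = k} := by
    intro i l hl
    obtain ⟨n, rfl⟩ := hMβ l hl
    refine ⟨n i, ?_⟩
    rw [LinearMap.sum_apply, Finset.sum_eq_single i]
    · rw [LinearMap.smul_apply, hw, if_pos rfl, zsmul_eq_mul, mul_one]
    · intro j _ hji
      rw [LinearMap.smul_apply, hw, if_neg (Ne.symm hji), smul_zero]
    · intro h; exact absurd (Finset.mem_univ i) h
  -- the dual vectors span `V`
  have hwspan : Submodule.span ℂ (Set.range w) = ⊤ := by
    have h1 : Submodule.span ℂ (Set.range B.dualBasis) = ⊤ := B.dualBasis.span_eq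
    have h2 : Set.range w = (Module.evalEquiv ℂ V).symm '' Set.range B.dualBasis := by
      ext x
      simp [w, Set.mem_image]
    rw [h2, ← LinearEquiv.coe_coe, ← Submodule.map_span, h1, Submodule.map_top,
      LinearMap.range_eq_top]
    exact (Module.evalEquiv ℂ V).symm.surjective
  rw [eq_top_iff, ← hwspan]
  exact Submodule.span_mono (Set.range_subset_iff.mpr hwmem)

end DualLattice

end Fermat.Agent.S23
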