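import Mathlib
import Fermat.Prelude.Def_CuspForm_IntegralStructure
import Fermat.Agent.S49.Glue
import Fermat.Agent.S22
import Fermat.Agent.S23.LinAlgCore

/-!
# S23: Hecke duality

* `exists_hecke_coeff`: for every `n ≥ 1` there is `t_n` in the Hecke algebra with
  `a₁ (t_n f) = a_n f`.
* `hasIntegralStructure_of_rank`: if `ℤ`-linearly independent elements of the Hecke algebra are
  `ℂ`-linearly independent, then `S₂(Γ₀(N))` has an integral structure.
-/

set_option autoImplicit false

namespace Fermat.Agent.S23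

open CuspForm CongruenceSubgroup ModularFormClass UpperHalfPlane Fermat.Agent.S49

variable {N : ℕ}

/-- the coefficient functional `f ↦ a₁(f)` -/
noncomputable def coeffOne (N : ℕ) : CuspForm (Gamma0 N) 2 →ₗ[ℂ] ℂ where
  toFun f := qCoeff ⇑f 1
  map_add' f g := qc_add f g 1
  map_smul' c f := by
    rw [qc_smul, RingHom.id_apply, smul_eq_mul]

@[simp] theorem coeffOne_apply (f : CuspForm (Gamma0 N) 2) : coeffOne N f = qCoeff ⇑f 1 := rfl

/-- **Hecke duality elements**: `a₁ (t_n f) = a_n f`. -/
theorem exists_hecke_coeff (N : ℕ) [NeZero N] (n : ℕ) (hn : 0 < n) :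
    ∃ t : Module.End ℂ (CuspForm (Gamma0 N) 2), t ∈ heckeAlgebra N 2 (∅ : Set ℕ) ∧
      ∀ f : CuspForm (Gamma0 N) 2, qCoeff ⇑(t f) 1 = qCoeff ⇑f n := by
  induction n using Nat.strong_induction_on with
  | _ n ih =>
    by_cases h1 : n = 1
    · subst h1
      exact ⟨1, Subalgebra.one_mem _, fun f => rfl⟩
    · have hp : (n.minFac).Prime := Nat.minFac_prime h1
      set p := n.minFac with hpdef
      have hpn : p ∣ n := Nat.minFac_dvd n
      obtain ⟨m, hm⟩ := hpn
      have hm' : n = m * p := by rw [hm, mul_comm]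
      have hmpos : 0 < m := by
        rcases Nat.eq_zero_or_pos m with h0 | h0
        · rw [h0, mul_zero] at hm; omega
        · exact h0
      have hmlt : m < n := by
        rw [hm']
        exact lt_mul_of_one_lt_right hmpos hp.one_lt
      obtain ⟨tm, htm, htm'⟩ := ih m hmlt hmpos
      by_cases hpN : p ∣ N
      · refine ⟨tm * heckeULin 2 hpN, Subalgebra.mul_mem _ htm
          (heckeULin_mem_heckeAlgebra hp hpN (Set.notMem_empty _)), fun f => ?_⟩
        rw [Module.End.mul_apply, htm', qc_U hp hpN, ← hm']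
      · by_cases hpm : p ∣ m
        · obtain ⟨l, hl⟩ := hpm
          have hlpos : 0 < l := by
            rcases Nat.eq_zero_or_pos l with h0 | h0
            · rw [h0, mul_zero] at hl; omega
            · exact h0
          have hllt : l < n := by
            have : l < m := by
              rw [hl]
              exact lt_mul_of_one_lt_left hlpos hp.one_lt
            omega
          obtain ⟨tl, htl, htl'⟩ := ih l hllt hlpos
          refine ⟨tm * heckeTLin 2 hp hpN - (p : ℤ) • tl, Subalgebra.sub_mem _
            (Subalgebra.mul_mem _ htm (heckeTLin_mem_heckeAlgebra hp hpN (Set.notMem_empty _)))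
            (Subalgebra.zsmul_mem _ htl _), fun f => ?_⟩
          rw [LinearMap.sub_apply, Module.End.mul_apply, LinearMap.smul_apply, qc_sub, htm',
            qc_zsmul, htl', qc_T hp hpN, ← hm', if_pos ⟨l, hl⟩]
          have : m / p = l := by
            rw [hl]; exact Nat.mul_div_cancel_left l hp.pos
          rw [this]
          push_cast
          ring
        · refine ⟨tm * heckeTLin 2 hp hpN, Subalgebra.mul_mem _ htm
            (heckeTLin_mem_heckeAlgebra hp hpN (Set.notMem_empty _)), fun f => ?_⟩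
          rw [Module.End.mul_apply, htm', qc_T hp hpN, ← hm', if_neg hpm, add_zero]

/-- The pairing `t ↦ a₁ ∘ t`. -/
noncomputable def pairing (N : ℕ) :
    Module.End ℂ (CuspForm (Gamma0 N) 2) →ₗ[ℂ] Module.Dual ℂ (CuspForm (Gamma0 N) 2) where
  toFun t := (coeffOne N).comp t
  map_add' t t' := by
    ext f
    simp only [LinearMap.comp_apply, LinearMap.add_apply, map_add]
  map_smul' c t := by
    ext f
    simp only [LinearMap.comp_apply, LinearMap.smul_apply, map_smul, RingHom.id_apply]

@[simp] theorem pairing_apply (t : Module.End ℂ (CuspForm (Gamma0 N) 2))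
    (f : CuspForm (Gamma0 N) 2) : pairing N t f = qCoeff ⇑(t f) 1 := rfl

/-- Elements of the Hecke algebra commute. -/
theorem hecke_commute {t t' : Module.End ℂ (CuspForm (Gamma0 N) 2)} [NeZero N]
    (ht : t ∈ heckeAlgebra N 2 (∅ : Set ℕ)) (ht' : t' ∈ heckeAlgebra N 2 (∅ : Set ℕ)) :
    t * t' = t' * t := by
  have := mul_comm (⟨t, ht⟩ : heckeAlgebra N 2 (∅ : Set ℕ)) ⟨t', ht'⟩
  exact congrArg Subtype.val this

/-- Elements of the complex span of the Hecke algebra commute with the Hecke algebra. -/
theorem span_hecke_commute [NeZero N] {t t' : Module.End ℂ (CuspForm (Gamma0 N) 2)}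
    (ht : t ∈ Submodule.span ℂ ((heckeAlgebra N 2 (∅ : Set ℕ) :
      Set (Module.End ℂ (CuspForm (Gamma0 N) 2)))))
    (ht' : t' ∈ heckeAlgebra N 2 (∅ : Set ℕ)) : t * t' = t' * t := by
  induction ht using Submodule.span_induction with
  | mem x hx => exact hecke_commute hx ht'
  | zero => simp
  | add x y _ _ hx hy => rw [add_mul, mul_add, hx, hy]
  | smul a x _ hx => rw [smul_mul_assoc, mul_smul_comm, hx]

/-- The pairing is non-degenerate on the complex span of the Hecke algebra. -/
theorem eq_zero_of_pairing_eq_zero [NeZero N] {t : Module.End ℂ (CuspForm (Gamma0 N) 2)}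
    (ht : t ∈ Submodule.span ℂ ((heckeAlgebra N 2 (∅ : Set ℕ) :
      Set (Module.End ℂ (CuspForm (Gamma0 N) 2)))))
    (h : pairing N t = 0) : t = 0 := by
  refine LinearMap.ext fun f => ?_
  rw [LinearMap.zero_apply]
  refine eq_zero_of_qc (N := N) (t f) fun n => ?_
  rcases Nat.eq_zero_or_pos n with h0 | hn
  · rw [h0]; exact qc_cusp _
  · obtain ⟨tn, htn, htn'⟩ := exists_hecke_coeff N n hn
    rw [← htn', ← Module.End.mul_apply, ← span_hecke_commute ht htn, Module.End.mul_apply]
    have := congrArg (fun l : Module.Dual ℂ (CuspForm (Gamma0 N) 2) => l (tn f)) h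
    simpa using this

/-- **Reduction of the integral structure to a rank statement.** -/
theorem hasIntegralStructure_of_rank (N : ℕ) [NeZero N]
    (hrank : ∀ (r : ℕ) (s : Fin r → Module.End ℂ (CuspForm (Gamma0 N) 2)),
      (∀ i, s i ∈ heckeAlgebra N 2 (∅ : Set ℕ)) → LinearIndependent ℤ s →
        LinearIndependent ℂ s) :
    CuspForm.HasIntegralStructure N 2 := by
  classical
  set M : Submodule ℤ (Module.Dual ℂ (CuspForm (Gamma0 N) 2)) :=
    (Subalgebra.toSubmodule (heckeAlgebra N 2 (∅ : Set ℕ))).map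
      ((pairing N).restrictScalars ℤ) with hMdef
  have hfin : Module.Finite ℤ (heckeAlgebra N 2 (∅ : Set ℕ)) := Fermat.Agent.S22.result N 2 ∅
  have hM : M.FG := by
    have : (Subalgebra.toSubmodule (heckeAlgebra N 2 (∅ : Set ℕ))).FG :=
      Module.Finite.iff_fg.mp hfin
    exact this.map _
  have hmemM : ∀ t ∈ heckeAlgebra N 2 (∅ : Set ℕ), pairing N t ∈ M := fun t ht =>
    Submodule.mem_map_of_mem (f := (pairing N).restrictScalars ℤ) ht
  have hsep : ∀ f : CuspForm (Gamma0 N) 2, (∀ l ∈ M, l f = 0) → f = 0 := by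
    intro f hf
    refine eq_zero_of_qc f fun n => ?_
    rcases Nat.eq_zero_or_pos n with h0 | hn
    · rw [h0]; exact qc_cusp _
    · obtain ⟨tn, htn, htn'⟩ := exists_hecke_coeff N n hn
      rw [← htn']
      exact hf _ (hmemM tn htn)
  have hind : ∀ (ι : Type) [Fintype ι] (m : ι → Module.Dual ℂ (CuspForm (Gamma0 N) 2)),
      (∀ i, m i ∈ M) → LinearIndependent ℤ m → LinearIndependent ℂ m := by
    intro ι _ m hm hmZ
    have hex : ∀ i, ∃ t ∈ heckeAlgebra N 2 (∅ : Set ℕ), pairing N t = m i := by
      intro i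
      obtain ⟨t, ht, hti⟩ := hm i
      exact ⟨t, ht, hti⟩
    choose s hs hsm using hex
    have hcomp : (pairing N) ∘ s = m := funext hsm
    have hsZ : LinearIndependent ℤ s := by
      refine LinearIndependent.of_comp ((pairing N).restrictScalars ℤ) ?_
      have : ((pairing N).restrictScalars ℤ) ∘ s = m := hcomp
      rw [this]
      exact hmZ
    let e : ι ≃ Fin (Fintype.card ι) := Fintype.equivFin ι
    have hsC : LinearIndependent ℂ s := by
      have h1 : LinearIndependent ℤ (s ∘ e.symm) := hsZ.comp _ e.symm.injective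
      have h2 := hrank _ (s ∘ e.symm) (fun i => hs _) h1
      have h3 := h2.comp _ e.injective
      have : (s ∘ e.symm) ∘ e = s := by ext i; simp
      rwa [this] at h3
    rw [← hcomp]
    refine hsC.map ?_
    rw [Submodule.disjoint_def]
    intro t ht hker
    refine eq_zero_of_pairing_eq_zero ?_ (LinearMap.mem_ker.mp hker)
    refine Submodule.span_mono ?_ ht
    rintro _ ⟨i, rfl⟩
    exact hs i
  have hspan := span_dual_lattice_eq_top M hM hsep hind
  unfold CuspForm.HasIntegralStructure
  rw [eq_top_iff, ← hspan]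
  refine Submodule.span_mono fun f hf => ?_
  rw [SetLike.mem_coe, mem_intLattice_iff']
  intro n
  rcases Nat.eq_zero_or_pos n with h0 | hn
  · exact ⟨0, by rw [h0, qc_cusp]; simp⟩
  · obtain ⟨tn, htn, htn'⟩ := exists_hecke_coeff N n hn
    obtain ⟨k, hk⟩ := hf _ (hmemM tn htn)
    exact ⟨k, by rw [← htn']; exact hk⟩

end Fermat.Agent.S23
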