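import Fermat.Prelude.Def_CuspForm_HeckeAlgebra
import Fermat.Prelude.Def_ModularCurve_PeriodHomPair
import Fermat.Agent.S22.HeckeCoset
import Fermat.Agent.S21.Primitive

/-!
# S23, piece (d): the Hecke operators on period homomorphisms

For a Hecke generator `T` (`T_ℓ` with `ℓ ∤ N`, or `U_q` with `q ∣ N`) and `γ ∈ Γ₀(N)` there are
finitely many `g_x ∈ Γ₀(N)` (depending only on `T` and `γ`) with
`periodHomPair N (T f, T h) γ = ∑ x, periodHomPair N (f, h) (g_x)` for all cusp forms `f`, `h`.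
Consequently every element of the Hecke algebra preserves the integrality of `periodHomPair`.
-/

set_option autoImplicit false

namespace Fermat.Agent.S23.HeckeHom

open UpperHalfPlane Complex Matrix ModularForm CongruenceSubgroup
open ModularCurve ModularCurve.Period Fermat.Agent.S22 Fermat.Agent.S21
open scoped MatrixGroups ModularForm
open P2MW.S_ModularForm_heckeT_slash_eq_self_of_mem_Gamma0.ModularForm.HeckeSlashInvariance

variable {N : ℕ} [NeZero N]

/-- The period formula for a Hecke sum, for arbitrary coset data. -/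
theorem periodMap_hecke_of_data {p : ℕ} (hp : p ≠ 0) {X : Type} [Fintype X]
    (r : X → OnePoint (ZMod p)) (f Tf : CuspForm (Gamma0 N) 2)
    (hTf : (⇑Tf : ℍ → ℂ) = ∑ x : X, (⇑f : ℍ → ℂ) ∣[(2 : ℤ)] heckeRep p (r x))
    (γ : Gamma0 N) (σ : Equiv.Perm X) (G : X → Gamma0 N)
    (hmul : ∀ x, heckeRep p (r x) * Matrix.SpecialLinearGroup.mapGL ℝ (γ : SL(2, ℤ)) =
      Matrix.SpecialLinearGroup.mapGL ℝ ((G x : Gamma0 N) : SL(2, ℤ)) * heckeRep p (r (σ x))) :
    periodMap N Tf (Additive.ofMul γ) = ∑ x, periodMap N f (Additive.ofMul (G x)) := by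
  rw [periodMap_apply_eq_kappa Tf γ ![1, 0]]
  have := kappa_hecke (n := 0) (k := 2) (by norm_num) hp r (allGood_coe_cuspForm f) hTf
    (γ : SL(2, ℤ)) (slash_eq_of_mem_Gamma0 Tf γ.2) σ (fun x => ((G x : Gamma0 N) : SL(2, ℤ)))
    (fun x => slash_eq_of_mem_Gamma0 f (G x).2) hmul
  rw [this, Finset.sum_apply]
  refine Finset.sum_congr rfl fun x _ => ?_
  rw [act_apply, periodMap_apply_eq_kappa f (G x) _]

/-! ### Conjugation by `diag(1, -1)` and coset data -/

/-- From an identity of integer matrices to the coset relation in `GL(2, ℝ)`. -/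
theorem hmul_of_repMat {p : ℕ} (hp : p ≠ 0) {x y : OnePoint (ZMod p)} {γ γ' : SL(2, ℤ)}
    (h : repMat p x * (γ : Matrix (Fin 2) (Fin 2) ℤ) =
      (γ' : Matrix (Fin 2) (Fin 2) ℤ) * repMat p y) :
    heckeRep p x * Matrix.SpecialLinearGroup.mapGL ℝ γ =
      Matrix.SpecialLinearGroup.mapGL ℝ γ' * heckeRep p y := by
  apply Units.ext
  simp only [Units.val_mul, heckeRep_val hp, Matrix.SpecialLinearGroup.mapGL_coe_matrix]
  have e1 : (repMat p x * (γ : Matrix (Fin 2) (Fin 2) ℤ)).map (Int.cast : ℤ → ℝ) =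
      (repMat p x).map (Int.cast : ℤ → ℝ) * (γ : Matrix (Fin 2) (Fin 2) ℤ).map (Int.cast : ℤ → ℝ) :=
    Matrix.map_mul (f := Int.castRingHom ℝ)
  have e2 : ((γ' : Matrix (Fin 2) (Fin 2) ℤ) * repMat p y).map (Int.cast : ℤ → ℝ) =
      (γ' : Matrix (Fin 2) (Fin 2) ℤ).map (Int.cast : ℤ → ℝ) * (repMat p y).map (Int.cast : ℤ → ℝ) :=
    Matrix.map_mul (f := Int.castRingHom ℝ)
  have := congrArg (fun M : Matrix (Fin 2) (Fin 2) ℤ => M.map (Int.cast : ℤ → ℝ)) h
  simp only [e1, e2] at this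
  exact this

/-- The translation `[[1, 1], [0, 1]]` as an element of `Γ₀(N)`. -/
def Tg (N : ℕ) : Gamma0 N :=
  ⟨ModularGroup.T, by rw [Gamma0_mem]; simp [ModularGroup.T]⟩

theorem coe_Tg_zpow (N : ℕ) (m : ℤ) :
    ((((Tg N) ^ m : Gamma0 N) : SL(2, ℤ)) : Matrix (Fin 2) (Fin 2) ℤ) = !![1, m; 0, 1] := by
  rw [Subgroup.coe_zpow]
  exact ModularGroup.coe_T_zpow m

theorem Tm_mul (a c : ℤ) :
    (!![1, a; 0, 1] : Matrix (Fin 2) (Fin 2) ℤ) * !![1, c; 0, 1] = !![1, a + c; 0, 1] := by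
  ext i j
  fin_cases i <;> fin_cases j <;> simp [Matrix.mul_apply, Fin.sum_univ_two, add_comm]

theorem Tm_zero : (!![1, 0; 0, 1] : Matrix (Fin 2) (Fin 2) ℤ) = 1 := by
  ext i j
  fin_cases i <;> fin_cases j <;> simp

omit [NeZero N] in
/-- Conjugating coset data by `diag(1, -1)`. -/
theorem exists_conj_data {p : ℕ} (hp : p ≠ 0) {X : Type} [Fintype X]
    (r : X → OnePoint (ZMod p)) (b : Equiv.Perm X) (ε : X → ℤ)
    (hb : ∀ x, jConjMat (repMat p (r x)) = !![1, -(ε x); 0, 1] * repMat p (r (b x)))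
    (γ : Gamma0 N) (σ : Equiv.Perm X) (G : X → Gamma0 N)
    (hmul : ∀ x, heckeRep p (r x) * Matrix.SpecialLinearGroup.mapGL ℝ (γ : SL(2, ℤ)) =
      Matrix.SpecialLinearGroup.mapGL ℝ ((G x : Gamma0 N) : SL(2, ℤ)) * heckeRep p (r (σ x))) :
    ∃ (σ' : Equiv.Perm X) (G' : X → Gamma0 N),
      (∀ x, heckeRep p (r x) *
          Matrix.SpecialLinearGroup.mapGL ℝ ((jConjGamma0 N γ : Gamma0 N) : SL(2, ℤ)) =
        Matrix.SpecialLinearGroup.mapGL ℝ ((G' x : Gamma0 N) : SL(2, ℤ)) *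
          heckeRep p (r (σ' x))) ∧
      ∀ ψ : Additive (Gamma0 N) →+ ℂ,
        ∑ x, ψ (Additive.ofMul (G' x)) = ∑ x, ψ (Additive.ofMul (jConjGamma0 N (G x))) := by
  refine ⟨(b.symm.trans σ).trans b,
    fun y => Tg N ^ (ε (b.symm y)) * jConjGamma0 N (G (b.symm y)) * Tg N ^ (-(ε (σ (b.symm y)))),
    fun y => ?_, fun ψ => ?_⟩
  · apply hmul_of_repMat hp
    obtain ⟨x, rfl⟩ : ∃ x, b x = y := ⟨b.symm y, b.apply_symm_apply y⟩
    simp only [Equiv.symm_apply_apply, Equiv.trans_apply]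
    have h1 := repMat_mul_of_mul hp (hmul x)
    have h2 := congrArg jConjMat h1
    rw [jConjMat_mul, jConjMat_mul, hb x, hb (σ x)] at h2
    rw [Subgroup.coe_mul, Subgroup.coe_mul, Matrix.SpecialLinearGroup.coe_mul,
      Matrix.SpecialLinearGroup.coe_mul, coe_Tg_zpow, coe_Tg_zpow, jConjGamma0_coe,
      jConjGamma0_coe, jConjSL_coe, jConjSL_coe]
    set A := repMat p (r (b x))
    set A' := repMat p (r (b (σ x)))
    set Jγ := jConjMat ((γ : SL(2, ℤ)) : Matrix (Fin 2) (Fin 2) ℤ)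
    set JG := jConjMat (((G x : Gamma0 N) : SL(2, ℤ)) : Matrix (Fin 2) (Fin 2) ℤ)
    calc A * Jγ = (!![1, ε x; 0, 1] * !![1, -(ε x); 0, 1]) * A * Jγ := by
          rw [Tm_mul, add_neg_cancel, Tm_zero, Matrix.one_mul]
      _ = !![1, ε x; 0, 1] * (!![1, -(ε x); 0, 1] * A * Jγ) := by
          simp only [Matrix.mul_assoc]
      _ = !![1, ε x; 0, 1] * (JG * (!![1, -(ε (σ x)); 0, 1] * A')) := by rw [h2]
      _ = !![1, ε x; 0, 1] * JG * !![1, -(ε (σ x)); 0, 1] * A' := by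
          simp only [Matrix.mul_assoc]
  · set t := ψ (Additive.ofMul (Tg N)) with ht
    have hterm : ∀ y, ψ (Additive.ofMul (Tg N ^ (ε (b.symm y)) * jConjGamma0 N (G (b.symm y)) *
        Tg N ^ (-(ε (σ (b.symm y)))))) =
        (fun x => (ε x • t + ψ (Additive.ofMul (jConjGamma0 N (G x)))) - ε (σ x) • t)
          (b.symm y) := by
      intro y
      simp only [ofMul_mul, map_add, ofMul_zpow, map_zsmul, ← ht]
      ring
    simp_rw [hterm]
    rw [Equiv.sum_comp b.symm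
      (fun x => (ε x • t + ψ (Additive.ofMul (jConjGamma0 N (G x)))) - ε (σ x) • t)]
    rw [Finset.sum_sub_distrib, Finset.sum_add_distrib,
      Equiv.sum_comp σ (fun x => ε x • t)]
    ring

/-- The formula for `periodHomPair` of a Hecke sum, for arbitrary coset data. -/
theorem periodHomPair_hecke_of_data {p : ℕ} (hp : p ≠ 0) {X : Type} [Fintype X]
    (r : X → OnePoint (ZMod p)) (b : Equiv.Perm X) (ε : X → ℤ)
    (hb : ∀ x, jConjMat (repMat p (r x)) = !![1, -(ε x); 0, 1] * repMat p (r (b x)))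
    (T : CuspForm (Gamma0 N) 2 → CuspForm (Gamma0 N) 2)
    (hT : ∀ f, (⇑(T f) : ℍ → ℂ) = ∑ x : X, (⇑f : ℍ → ℂ) ∣[(2 : ℤ)] heckeRep p (r x))
    (γ : Gamma0 N) (σ : Equiv.Perm X) (G : X → Gamma0 N)
    (hmul : ∀ x, heckeRep p (r x) * Matrix.SpecialLinearGroup.mapGL ℝ (γ : SL(2, ℤ)) =
      Matrix.SpecialLinearGroup.mapGL ℝ ((G x : Gamma0 N) : SL(2, ℤ)) * heckeRep p (r (σ x)))
    (f h : CuspForm (Gamma0 N) 2) :
    periodHomPair N (T f, T h) (Additive.ofMul γ) =
      ∑ x, periodHomPair N (f, h) (Additive.ofMul (G x)) := by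
  obtain ⟨σ', G', hmul', hsum⟩ := exists_conj_data hp r b ε hb γ σ G hmul
  have e1 : ∀ f : CuspForm (Gamma0 N) 2, periodMap N (T f) (Additive.ofMul γ) =
      ∑ x, periodMap N f (Additive.ofMul (G x)) := fun f =>
    periodMap_hecke_of_data hp r f (T f) (hT f) γ σ G hmul
  have e2 : ∀ f : CuspForm (Gamma0 N) 2,
      periodMap N (T f) (Additive.ofMul (jConjGamma0 N γ)) =
        ∑ x, periodMap N f (Additive.ofMul (jConjGamma0 N (G x))) := fun f => by
    rw [periodMap_hecke_of_data hp r f (T f) (hT f) (jConjGamma0 N γ) σ' G' hmul', hsum]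
  rw [periodHomPair_apply, e1, e2, e1, e2]
  simp_rw [periodHomPair_apply]
  simp only [Finset.sum_add_distrib, Finset.sum_sub_distrib]

/-! ### The two kinds of generators -/

/-- The sign involution on `ℙ¹(𝔽_p)`. -/
def barPerm (p : ℕ) : Equiv.Perm (OnePoint (ZMod p)) := Equiv.optionCongr (Equiv.neg (ZMod p))

/-- The carry of the sign involution. -/
def epsZ (p : ℕ) (j : ZMod p) : ℤ := if j = 0 then 0 else 1

theorem jConjMat_repMat_coe (p : ℕ) [NeZero p] (j : ZMod p) :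
    jConjMat (repMat p (j : OnePoint (ZMod p))) =
      !![1, -(epsZ p j); 0, 1] * repMat p ((-j : ZMod p) : OnePoint (ZMod p)) := by
  have hval : ((-j).val : ℤ) = -(j.val : ℤ) + p * epsZ p j := by
    rw [ZMod.neg_val, epsZ]
    split_ifs with h
    · subst h; simp
    · have := j.val_lt
      push_cast [Nat.cast_sub this.le]
      ring
  have hval' : ((-j : ZMod p).cast : ℤ) = -(j.cast : ℤ) + p * epsZ p j := by
    rw [← ZMod.natCast_val, ← ZMod.natCast_val]
    exact hval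
  ext i k
  fin_cases i <;> fin_cases k <;>
    simp [jConjMat, repMat, Matrix.mul_apply, Fin.sum_univ_two]
  rw [hval']
  ring

theorem jConjMat_repMat_infty (p : ℕ) :
    jConjMat (repMat p (OnePoint.infty : OnePoint (ZMod p))) =
      !![1, -(0 : ℤ); 0, 1] * repMat p (OnePoint.infty : OnePoint (ZMod p)) := by
  ext i k
  fin_cases i <;> fin_cases k <;>
    simp [jConjMat, repMat, Matrix.mul_apply, Fin.sum_univ_two]

/-- **Hecke formula for `T_ℓ`, `ℓ ∤ N`.** -/
theorem periodHomPair_heckeT {ℓ : ℕ} (hℓ : ℓ.Prime) (hℓN : ¬ ℓ ∣ N) (γ : Gamma0 N) :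
    ∃ (X : Type) (_ : Fintype X) (G : X → Gamma0 N), ∀ f h : CuspForm (Gamma0 N) 2,
      periodHomPair N (CuspForm.heckeTLin 2 hℓ hℓN f, CuspForm.heckeTLin 2 hℓ hℓN h)
          (Additive.ofMul γ) =
        ∑ x, periodHomPair N (f, h) (Additive.ofMul (G x)) := by
  have : Fact ℓ.Prime := ⟨hℓ⟩
  have : NeZero ℓ := ⟨hℓ.ne_zero⟩
  have key : ∀ x : OnePoint (ZMod ℓ), ∃ g' : Gamma0 N,
      heckeRep ℓ x * Matrix.SpecialLinearGroup.mapGL ℝ (γ : SL(2, ℤ)) =
        Matrix.SpecialLinearGroup.mapGL ℝ ((g' : Gamma0 N) : SL(2, ℤ)) *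
          heckeRep ℓ (redMatrix ℓ (γ : SL(2, ℤ)) • x) := by
    intro x
    obtain ⟨g', hg', hmul⟩ := heckeRep_mul hℓN (γ : SL(2, ℤ)) (dvd_of_mem_Gamma0 γ.2) x
    exact ⟨⟨g', mem_Gamma0_of_dvd hg'⟩, hmul⟩
  choose G hG using key
  refine ⟨OnePoint (ZMod ℓ), inferInstance, G, fun f h => ?_⟩
  refine periodHomPair_hecke_of_data hℓ.ne_zero (fun x => x) (barPerm ℓ)
    (fun x => x.elim 0 (epsZ ℓ)) ?_ (fun f => CuspForm.heckeTLin 2 hℓ hℓN f) (fun f => ?_) γ
    (MulAction.toPerm (redMatrix ℓ (γ : SL(2, ℤ)))) G hG f h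
  · intro x
    induction x using OnePoint.rec with
    | infty => exact jConjMat_repMat_infty ℓ
    | coe j => exact jConjMat_repMat_coe ℓ j
  · rw [CuspForm.coe_heckeTLin_apply]
    exact heckeT_eq_sum_onePoint 2 ⇑f

/-- **Hecke formula for `U_q`, `q ∣ N`.** -/
theorem periodHomPair_heckeU {q : ℕ} (hq : q.Prime) (hqN : q ∣ N) (γ : Gamma0 N) :
    ∃ (X : Type) (_ : Fintype X) (G : X → Gamma0 N), ∀ f h : CuspForm (Gamma0 N) 2,
      periodHomPair N (CuspForm.heckeULin 2 hqN f, CuspForm.heckeULin 2 hqN h)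
          (Additive.ofMul γ) =
        ∑ x, periodHomPair N (f, h) (Additive.ofMul (G x)) := by
  have : NeZero q := ⟨hq.ne_zero⟩
  have hdvd : (q : ℤ) ∣ (γ : SL(2, ℤ)) 1 0 :=
    (Int.natCast_dvd_natCast.mpr hqN).trans (dvd_of_mem_Gamma0 γ.2)
  have hc0 : (((γ : SL(2, ℤ)) 1 0 : ℤ) : ZMod q) = 0 :=
    (ZMod.intCast_zmod_eq_zero_iff_dvd _ _).mpr hdvd
  have key : ∀ x : ZMod q, ∃ g' : Gamma0 N,
      heckeRep q (x : OnePoint (ZMod q)) * Matrix.SpecialLinearGroup.mapGL ℝ (γ : SL(2, ℤ)) =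
        Matrix.SpecialLinearGroup.mapGL ℝ ((g' : Gamma0 N) : SL(2, ℤ)) *
          heckeRep q ((affinePerm (γ : SL(2, ℤ)) hc0 x : ZMod q) : OnePoint (ZMod q)) := by
    intro x
    obtain ⟨g', hg', hmul⟩ := heckeMatrix_mul_of_dvd (γ : SL(2, ℤ)) hdvd x
    refine ⟨⟨g', mem_Gamma0_of_dvd ?_⟩, hmul⟩
    rw [hg']
    exact dvd_mul_of_dvd_right (dvd_of_mem_Gamma0 γ.2) _
  choose G hG using key
  refine ⟨ZMod q, inferInstance, G, fun f h => ?_⟩
  refine periodHomPair_hecke_of_data hq.ne_zero (fun x : ZMod q => (x : OnePoint (ZMod q)))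
    (Equiv.neg (ZMod q)) (epsZ q) (fun j => jConjMat_repMat_coe q j)
    (fun f => CuspForm.heckeULin 2 hqN f) (fun f => ?_) γ
    (affinePerm (γ : SL(2, ℤ)) hc0) G hG f h
  rw [CuspForm.coe_heckeULin_apply]
  exact heckeU_eq_sum_zmod 2 ⇑f

/-- **Hecke formula for the generators of the Hecke algebra.** -/
theorem periodHomPair_generator (S : Set ℕ) {T : Module.End ℂ (CuspForm (Gamma0 N) 2)}
    (hT : T ∈ CuspForm.heckeGenerators N 2 S) (γ : Gamma0 N) :
    ∃ (X : Type) (_ : Fintype X) (G : X → Gamma0 N), ∀ f h : CuspForm (Gamma0 N) 2,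
      periodHomPair N (T f, T h) (Additive.ofMul γ) =
        ∑ x, periodHomPair N (f, h) (Additive.ofMul (G x)) := by
  rcases hT with ⟨ℓ, hℓ, hℓN, -, rfl⟩ | ⟨q, hqN, hq, -, rfl⟩
  · exact periodHomPair_heckeT hℓ hℓN γ
  · exact periodHomPair_heckeU hq hqN γ

/-! ### The whole Hecke algebra -/

/-- **Integrality.** Elements of the Hecke algebra preserve the integrality of the period
homomorphism `periodHomPair`. -/
theorem intValued_of_mem_heckeAlgebra (S : Set ℕ)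
    {s : Module.End ℂ (CuspForm (Gamma0 N) 2)} (hs : s ∈ CuspForm.heckeAlgebra N 2 S)
    {f h : CuspForm (Gamma0 N) 2}
    (hfh : ∀ γ : Additive (Gamma0 N), ∃ n : ℤ, periodHomPair N (f, h) γ = (n : ℂ)) :
    ∀ γ : Additive (Gamma0 N), ∃ n : ℤ, periodHomPair N (s f, s h) γ = (n : ℂ) := by
  revert f h
  refine Algebra.adjoin_induction (R := ℤ) (s := CuspForm.heckeGenerators N 2 S)
    (p := fun s _ => ∀ {f h : CuspForm (Gamma0 N) 2},
      (∀ γ : Additive (Gamma0 N), ∃ n : ℤ, periodHomPair N (f, h) γ = (n : ℂ)) →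
      ∀ γ : Additive (Gamma0 N), ∃ n : ℤ, periodHomPair N (s f, s h) γ = (n : ℂ))
    ?_ ?_ ?_ ?_ hs
  · intro T hT f h hfh γ
    obtain ⟨X, _, G, hG⟩ := periodHomPair_generator S hT (Additive.toMul γ)
    choose n hn using hfh
    refine ⟨∑ x, n (Additive.ofMul (G x)), ?_⟩
    have := hG f h
    rw [ofMul_toMul] at this
    rw [this]
    push_cast
    exact Finset.sum_congr rfl fun x _ => hn _
  · intro r f h hfh γ
    obtain ⟨n, hn⟩ := hfh γ
    refine ⟨r * n, ?_⟩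
    have e : ((algebraMap ℤ (Module.End ℂ (CuspForm (Gamma0 N) 2)) r) f,
        (algebraMap ℤ (Module.End ℂ (CuspForm (Gamma0 N) 2)) r) h) = (r : ℂ) • (f, h) := by
      simp only [Algebra.algebraMap_eq_smul_one, Prod.smul_mk, LinearMap.smul_apply,
        Module.End.one_apply, Int.cast_smul_eq_zsmul]
    rw [e, map_smul, AddMonoidHom.smul_apply, hn]
    push_cast
    rfl
  · intro x y _ _ hx hy f h hfh γ
    obtain ⟨n, hn⟩ := hx hfh γ
    obtain ⟨m, hm⟩ := hy hfh γ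
    refine ⟨n + m, ?_⟩
    have e : ((x + y) f, (x + y) h) = (x f, x h) + (y f, y h) := rfl
    rw [e, map_add, AddMonoidHom.add_apply, hn, hm]
    push_cast
    rfl
  · intro x y _ _ hx hy f h hfh γ
    exact hx (hy hfh) γ

/-- **Operator form.** Every element of the Hecke algebra acts on the period functions
`γ ↦ periodHomPair N (f, h) γ` through an operator on functions on `Γ₀(N)` which preserves
integer valued functions. -/
theorem exists_operator_of_mem_heckeAlgebra (S : Set ℕ)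
    {s : Module.End ℂ (CuspForm (Gamma0 N) 2)} (hs : s ∈ CuspForm.heckeAlgebra N 2 S) :
    ∃ B : Module.End ℂ (Gamma0 N → ℂ),
      (∀ φ : Gamma0 N → ℂ, (∀ γ, ∃ n : ℤ, φ γ = (n : ℂ)) → ∀ γ, ∃ n : ℤ, B φ γ = (n : ℂ)) ∧
      ∀ f h : CuspForm (Gamma0 N) 2,
        (fun γ : Gamma0 N => periodHomPair N (s f, s h) (Additive.ofMul γ)) =
          B (fun γ : Gamma0 N => periodHomPair N (f, h) (Additive.ofMul γ)) := by
  refine Algebra.adjoin_induction (R := ℤ) (s := CuspForm.heckeGenerators N 2 S)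
    (p := fun s _ => ∃ B : Module.End ℂ (Gamma0 N → ℂ),
      (∀ φ : Gamma0 N → ℂ, (∀ γ, ∃ n : ℤ, φ γ = (n : ℂ)) → ∀ γ, ∃ n : ℤ, B φ γ = (n : ℂ)) ∧
      ∀ f h : CuspForm (Gamma0 N) 2,
        (fun γ : Gamma0 N => periodHomPair N (s f, s h) (Additive.ofMul γ)) =
          B (fun γ : Gamma0 N => periodHomPair N (f, h) (Additive.ofMul γ)))
    ?_ ?_ ?_ ?_ hs
  · intro T hT
    choose X hX G hG using fun γ : Gamma0 N => periodHomPair_generator S hT γ
    refine ⟨{ toFun := fun φ γ => ∑ x : X γ, φ (G γ x)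
              map_add' := fun φ φ' => by
                ext γ
                simp only [Pi.add_apply, Finset.sum_add_distrib]
              map_smul' := fun c φ => by
                ext γ
                simp only [Pi.smul_apply, smul_eq_mul, RingHom.id_apply, Finset.mul_sum] },
      fun φ hφ γ => ?_, fun f h => ?_⟩
    · choose n hn using hφ
      refine ⟨∑ x : X γ, n (G γ x), ?_⟩
      show ∑ x : X γ, φ (G γ x) = _
      push_cast
      exact Finset.sum_congr rfl fun x _ => hn _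
    · ext γ
      exact hG γ f h
  · intro r
    refine ⟨(r : ℂ) • LinearMap.id, fun φ hφ γ => ?_, fun f h => ?_⟩
    · obtain ⟨n, hn⟩ := hφ γ
      refine ⟨r * n, ?_⟩
      show (r : ℂ) • φ γ = _
      rw [hn]
      push_cast
      rfl
    · ext γ
      have e : ((algebraMap ℤ (Module.End ℂ (CuspForm (Gamma0 N) 2)) r) f,
          (algebraMap ℤ (Module.End ℂ (CuspForm (Gamma0 N) 2)) r) h) = (r : ℂ) • (f, h) := by
        simp only [Algebra.algebraMap_eq_smul_one, Prod.smul_mk, LinearMap.smul_apply,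
          Module.End.one_apply, Int.cast_smul_eq_zsmul]
      rw [e, map_smul, AddMonoidHom.smul_apply]
      rfl
  · rintro x y _ _ ⟨Bx, hBx, hx⟩ ⟨By, hBy, hy⟩
    refine ⟨Bx + By, fun φ hφ γ => ?_, fun f h => ?_⟩
    · obtain ⟨n, hn⟩ := hBx φ hφ γ
      obtain ⟨m, hm⟩ := hBy φ hφ γ
      refine ⟨n + m, ?_⟩
      show Bx φ γ + By φ γ = _
      rw [hn, hm]
      push_cast
      rfl
    · have e : ∀ γ, periodHomPair N ((x + y) f, (x + y) h) γ =
          periodHomPair N (x f, x h) γ + periodHomPair N (y f, y h) γ := fun γ => by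
        have e' : ((x + y) f, (x + y) h) = (x f, x h) + (y f, y h) := rfl
        rw [e', map_add, AddMonoidHom.add_apply]
      ext γ
      rw [e, LinearMap.add_apply, Pi.add_apply, ← hx f h, ← hy f h]
  · rintro x y _ _ ⟨Bx, hBx, hx⟩ ⟨By, hBy, hy⟩
    refine ⟨Bx * By, fun φ hφ γ => hBx _ (hBy φ hφ) γ, fun f h => ?_⟩
    have e1 : (fun γ : Gamma0 N => periodHomPair N ((x * y) f, (x * y) h) (Additive.ofMul γ)) =
        fun γ : Gamma0 N => periodHomPair N (x (y f), x (y h)) (Additive.ofMul γ) := rfl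
    rw [e1, hx (y f) (y h), hy f h]
    rfl

end Fermat.Agent.S23.HeckeHom
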