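import Mathlib
import Fermat.Prelude.Def_ModularCurve_PeriodMap
import Fermat.Agent.S22.GroupFG

/-!
# S23: integer valued homomorphisms span

For a finitely generated group `Γ`, every homomorphism `Γ → ℂ` vanishing on a given set is a
complex linear combination of integer valued homomorphisms vanishing on that set.
-/

set_option autoImplicit false

open scoped MatrixGroups

namespace Fermat.Agent.S23

section General

variable {Γ : Type*} [Group Γ]

/-- The values of a homomorphism lie in the subgroup generated by the values on generators. -/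
theorem hom_mem_closure {A : Type*} [AddCommGroup A] (ψ : Additive Γ →+ A) (S : Set Γ)
    (hS : Subgroup.closure S = ⊤) (L : AddSubgroup A)
    (hL : ∀ s ∈ S, ψ (Additive.ofMul s) ∈ L) (γ : Γ) : ψ (Additive.ofMul γ) ∈ L := by
  have hγ : γ ∈ Subgroup.closure S := by rw [hS]; trivial
  induction hγ using Subgroup.closure_induction with
  | mem x hx => exact hL x hx
  | one =>
    have : ψ (Additive.ofMul (1 : Γ)) = 0 := map_zero ψ
    rw [this]; exact L.zero_mem
  | mul x y _ _ hx hy =>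
    have : ψ (Additive.ofMul (x * y)) = ψ (Additive.ofMul x) + ψ (Additive.ofMul y) :=
      map_add ψ (Additive.ofMul x) (Additive.ofMul y)
    rw [this]; exact L.add_mem hx hy
  | inv x _ hx =>
    have : ψ (Additive.ofMul x⁻¹) = -ψ (Additive.ofMul x) :=
      map_neg ψ (Additive.ofMul x)
    rw [this]; exact L.neg_mem hx

/-- **Integer valued homomorphisms span.** -/
theorem mem_span_integral_of_fg [Group.FG Γ] (P : Set Γ) (ψ : Additive Γ →+ ℂ)
    (hψ : ∀ γ ∈ P, ψ (Additive.ofMul γ) = 0) :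
    ψ ∈ Submodule.span ℂ {φ : Additive Γ →+ ℂ |
      (∀ γ ∈ P, φ (Additive.ofMul γ) = 0) ∧ ∀ γ : Γ, ∃ m : ℤ, φ (Additive.ofMul γ) = m} := by
  classical
  obtain ⟨S, hS⟩ := Group.fg_def.mp (inferInstance : Group.FG Γ)
  -- the lattice of values
  let L : Submodule ℤ ℂ := Submodule.span ℤ ((fun s : Γ => ψ (Additive.ofMul s)) '' (S : Set Γ))
  have hLfg : L.FG := Submodule.fg_span ((S : Set Γ).toFinite.image _)
  have : Module.Finite ℤ L := Module.Finite.iff_fg.mpr hLfg
  have : Module.Free ℤ L := Module.free_of_finite_type_torsion_free'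
  let b := Module.Free.chooseBasis ℤ L
  have hmem : ∀ γ : Γ, ψ (Additive.ofMul γ) ∈ L := by
    intro γ
    refine hom_mem_closure ψ (S : Set Γ) hS L.toAddSubgroup (fun s hs => ?_) γ
    exact Submodule.subset_span ⟨s, hs, rfl⟩
  -- the homomorphism with values in `L`
  let ψL : Additive Γ →+ L :=
    { toFun := fun γ => ⟨ψ γ, hmem (Additive.toMul γ)⟩
      map_zero' := Subtype.ext (map_zero ψ)
      map_add' := fun x y => Subtype.ext (map_add ψ x y) }
  -- the coordinates
  let φ : Module.Free.ChooseBasisIndex ℤ L → (Additive Γ →+ ℂ) := fun j =>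
    (Int.castAddHom ℂ).comp (((b.coord j : L →ₗ[ℤ] ℤ).toAddMonoidHom).comp ψL)
  have hφ : ∀ j (γ : Additive Γ), φ j γ = ((b.repr (ψL γ) j : ℤ) : ℂ) := fun j γ => rfl
  have hdecomp : ψ = ∑ j, (b j : ℂ) • φ j := by
    refine AddMonoidHom.ext fun γ => ?_
    rw [AddMonoidHom.finsetSum_apply]
    have h := b.sum_repr (ψL γ)
    have h2 := congrArg (fun x : L => (x : ℂ)) h
    simp only [Submodule.coe_sum, Submodule.coe_smul] at h2
    have h3 : ((ψL γ : L) : ℂ) = ψ γ := rfl
    rw [h3] at h2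
    rw [← h2]
    refine Finset.sum_congr rfl fun j _ => ?_
    rw [AddMonoidHom.smul_apply, hφ, zsmul_eq_mul, smul_eq_mul, mul_comm]
  rw [hdecomp]
  refine Submodule.sum_mem _ fun j _ => Submodule.smul_mem _ _ (Submodule.subset_span ⟨?_, ?_⟩)
  · intro γ hγ
    have h0 : ψL (Additive.ofMul γ) = 0 := Subtype.ext (hψ γ hγ)
    rw [hφ, h0, map_zero]
    simp
  · intro γ
    exact ⟨b.repr (ψL (Additive.ofMul γ)) j, rfl⟩

end General

section Parabolic

open ModularCurve.Period CongruenceSubgroup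

/-- **Integer valued parabolic homomorphisms span `parabolicHoms`.** -/
theorem mem_span_integral_parabolicHoms (N : ℕ) [NeZero N] (ψ : Additive (Gamma0 N) →+ ℂ)
    (hψ : ψ ∈ parabolicHoms ℂ (Gamma0 N) ℂ) :
    ψ ∈ Submodule.span ℂ {φ : Additive (Gamma0 N) →+ ℂ |
      φ ∈ parabolicHoms ℂ (Gamma0 N) ℂ ∧
        ∀ γ : Gamma0 N, ∃ m : ℤ, φ (Additive.ofMul γ) = m} := by
  have : Group.FG (Gamma0 N) := Fermat.Agent.S22.gamma0_fg N
  have h := mem_span_integral_of_fg
    {γ : Gamma0 N | ((γ : SL(2, ℤ)) : Matrix (Fin 2) (Fin 2) ℤ).trace ^ 2 = 4} ψ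
    (fun γ hγ => hψ γ hγ)
  refine Submodule.span_mono ?_ h
  rintro φ ⟨h1, h2⟩
  exact ⟨fun γ hγ => h1 γ hγ, h2⟩

end Parabolic

end Fermat.Agent.S23
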