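import Mathlib

/-!
# S23: abstract Hecke (transfer) operators on homomorphisms

`Γ` is a group with an embedding `e : Γ →* G` and `α : X → G` is a finite family such that right
multiplication by `e(Γ)` permutes the cosets `e(Γ) α x`, which are pairwise distinct.  For
`γ ∈ Γ` write `α x · e γ = e (el γ x) · α (nxt γ x)`.  The operator
`(transfer ψ)(γ) = ∑ₓ ψ (el γ x)` maps homomorphisms `Γ → A` to homomorphisms, preserves
integrality, and commutes with every automorphism of `Γ` induced by an automorphism of `G` that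
permutes the cosets.
-/

set_option autoImplicit false

namespace Fermat.Agent.S23.Transfer

variable {Γ G : Type*} [Group Γ] [Group G]

/-- Coset data. -/
structure CosetData (e : Γ →* G) {X : Type*} (α : X → G) : Prop where
  inj : Function.Injective e
  perm : ∀ (γ : Γ) (x : X), ∃ (y : X) (g : Γ), α x * e γ = e g * α y
  sep : ∀ (x y : X) (g : Γ), α x = e g * α y → x = y

namespace CosetData

variable {e : Γ →* G} {X : Type*} {α : X → G} (D : CosetData e α)

/-- the permutation of the index set induced by `γ` -/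
noncomputable def nxt (γ : Γ) (x : X) : X := (D.perm γ x).choose

/-- the element of `Γ` with `α x · e γ = e (el γ x) · α (nxt γ x)` -/
noncomputable def el (γ : Γ) (x : X) : Γ := (D.perm γ x).choose_spec.choose

theorem spec (γ : Γ) (x : X) : α x * e γ = e (D.el γ x) * α (D.nxt γ x) :=
  (D.perm γ x).choose_spec.choose_spec

theorem unique {γ : Γ} {x y : X} {g : Γ} (h : α x * e γ = e g * α y) :
    D.nxt γ x = y ∧ D.el γ x = g := by
  have h1 := D.spec γ x
  rw [h] at h1
  have h2 : α y = e (g⁻¹ * D.el γ x) * α (D.nxt γ x) := by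
    rw [map_mul, map_inv, mul_assoc, ← h1, inv_mul_cancel_left]
  have hy : y = D.nxt γ x := D.sep _ _ _ h2
  refine ⟨hy.symm, ?_⟩
  rw [← hy] at h1
  exact (D.inj (mul_right_cancel h1)).symm

theorem nxt_one (x : X) : D.nxt 1 x = x :=
  (D.unique (γ := 1) (x := x) (y := x) (g := 1) (by simp)).1

theorem el_one (x : X) : D.el 1 x = 1 :=
  (D.unique (γ := 1) (x := x) (y := x) (g := 1) (by simp)).2

theorem spec_mul (γ γ' : Γ) (x : X) :
    α x * e (γ * γ') = e (D.el γ x * D.el γ' (D.nxt γ x)) * α (D.nxt γ' (D.nxt γ x)) := by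
  rw [map_mul, ← mul_assoc, D.spec γ x, mul_assoc, D.spec γ' (D.nxt γ x), ← mul_assoc, map_mul]

theorem nxt_mul (γ γ' : Γ) (x : X) : D.nxt (γ * γ') x = D.nxt γ' (D.nxt γ x) :=
  (D.unique (D.spec_mul γ γ' x)).1

theorem el_mul (γ γ' : Γ) (x : X) : D.el (γ * γ') x = D.el γ x * D.el γ' (D.nxt γ x) :=
  (D.unique (D.spec_mul γ γ' x)).2

/-- `nxt γ` as a permutation. -/
noncomputable def permOf (γ : Γ) : Equiv.Perm X where
  toFun := D.nxt γ
  invFun := D.nxt γ⁻¹
  left_inv x := by rw [← D.nxt_mul, mul_inv_cancel, D.nxt_one]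
  right_inv x := by rw [← D.nxt_mul, inv_mul_cancel, D.nxt_one]

@[simp] theorem permOf_apply (γ : Γ) (x : X) : D.permOf γ x = D.nxt γ x := rfl

section transfer

variable [Fintype X] {A : Type*} [AddCommGroup A]

/-- The transfer (Hecke) operator on homomorphisms. -/
noncomputable def transfer (ψ : Additive Γ →+ A) : Additive Γ →+ A where
  toFun γ := ∑ x, ψ (Additive.ofMul (D.el (Additive.toMul γ) x))
  map_zero' := by
    simp only [toMul_zero, el_one, ofMul_one, map_zero, Finset.sum_const_zero]
  map_add' γ γ' := by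
    simp only [toMul_add, el_mul, ofMul_mul, map_add, Finset.sum_add_distrib]
    congr 1
    exact Equiv.sum_comp (D.permOf (Additive.toMul γ))
      (fun x => ψ (Additive.ofMul (D.el (Additive.toMul γ') x)))

theorem transfer_apply (ψ : Additive Γ →+ A) (γ : Γ) :
    D.transfer ψ (Additive.ofMul γ) = ∑ x, ψ (Additive.ofMul (D.el γ x)) := rfl

theorem transfer_add (ψ φ : Additive Γ →+ A) :
    D.transfer (ψ + φ) = D.transfer ψ + D.transfer φ := by
  refine AddMonoidHom.ext fun γ => ?_
  show ∑ x, (ψ + φ) _ = (∑ x, ψ _) + ∑ x, φ _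
  simp only [AddMonoidHom.add_apply, Finset.sum_add_distrib]

/-- The transfer operator as a linear map. -/
noncomputable def transferL (R : Type*) [Semiring R] [Module R A] :
    (Additive Γ →+ A) →ₗ[R] (Additive Γ →+ A) where
  toFun := D.transfer
  map_add' := D.transfer_add
  map_smul' c ψ := by
    refine AddMonoidHom.ext fun γ => ?_
    show ∑ x, (c • ψ) _ = c • ∑ x, ψ _
    simp only [AddMonoidHom.smul_apply, Finset.smul_sum]

@[simp] theorem transferL_apply (R : Type*) [Semiring R] [Module R A] (ψ : Additive Γ →+ A)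
    (γ : Γ) :
    D.transferL R ψ (Additive.ofMul γ) = ∑ x, ψ (Additive.ofMul (D.el γ x)) := rfl

/-- Compatibility with an automorphism of `Γ` induced by an involution of `G` permuting the
cosets. -/
theorem transfer_conj (c : Γ →* Γ) (κ : G →* G) (hκe : ∀ γ, κ (e γ) = e (c γ))
    (hκκ : ∀ g, κ (κ g) = g)
    (hα : ∀ x, ∃ (x' : X) (τ : Γ), κ (α x) = e τ * α x')
    (ψ : Additive Γ →+ A) (γ : Γ) :
    D.transfer ψ (Additive.ofMul (c γ)) = ∑ x, ψ (Additive.ofMul (c (D.el γ x))) := by
  choose ν τ hντ using hα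
  have hinj : Function.Injective ν := by
    intro x y hxy
    have hx := hντ x
    have hy := hντ y
    rw [hxy] at hx
    have h1 : κ (α x) = e (τ x * (τ y)⁻¹) * κ (α y) := by
      rw [hx, hy, map_mul, map_inv, mul_assoc, inv_mul_cancel_left]
    have h2 := congrArg κ h1
    rw [hκκ, map_mul, hκκ, hκe] at h2
    exact D.sep _ _ _ h2
  have hbij : Function.Bijective ν := Finite.injective_iff_bijective.mp hinj
  have key : ∀ x, D.el (c γ) (ν x) = (τ x)⁻¹ * c (D.el γ x) * τ (D.nxt γ x) := by
    intro x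
    have h := congrArg κ (D.spec γ x)
    rw [map_mul, map_mul, hκe, hκe, hντ x, hντ (D.nxt γ x)] at h
    have h' : α (ν x) * e (c γ) =
        e ((τ x)⁻¹ * c (D.el γ x) * τ (D.nxt γ x)) * α (ν (D.nxt γ x)) := by
      calc α (ν x) * e (c γ) = (e (τ x))⁻¹ * (e (τ x) * α (ν x) * e (c γ)) := by group
        _ = (e (τ x))⁻¹ * (e (c (D.el γ x)) * (e (τ (D.nxt γ x)) * α (ν (D.nxt γ x)))) := by
            rw [h]
        _ = e ((τ x)⁻¹ * c (D.el γ x) * τ (D.nxt γ x)) * α (ν (D.nxt γ x)) := by
            simp only [map_mul, map_inv, mul_assoc]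
    exact (D.unique h').2
  rw [transfer_apply, ← Equiv.sum_comp (Equiv.ofBijective ν hbij)]
  simp only [Equiv.ofBijective_apply, key, ofMul_mul, ofMul_inv, map_add, map_neg]
  rw [Finset.sum_add_distrib, Finset.sum_add_distrib, Finset.sum_neg_distrib]
  have hre := Equiv.sum_comp (D.permOf γ) (fun x => ψ (Additive.ofMul (τ x)))
  simp only [permOf_apply] at hre
  rw [hre]
  abel

end transfer

end CosetData

end Fermat.Agent.S23.Transfer
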