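import Mathlib
import Fermat.Prelude.Def_CuspForm_HeckeAlgebra
import Fermat.Prelude.Def_ModularCurve_PeriodHomPair
import Fermat.Agent.S22.HeckeCoset
import Fermat.Agent.S21.Primitive
import Fermat.Agent.S23.Transfer

/-!
# S23 (d): Hecke operators on `Hom(Γ₀(N), ℂ)`

For every `t` in the Hecke algebra of weight two there is an operator `B` on
`Additive (Gamma0 N) →+ ℂ` which preserves integer valued homomorphisms, commutes with the
involution `charInvolution`, and satisfies `B (periodMap f) = periodMap (t f)`.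
-/

set_option autoImplicit false

namespace Fermat.Agent.S23.HeckeLift

open UpperHalfPlane Complex Matrix ModularForm CongruenceSubgroup
open ModularCurve ModularCurve.Period Fermat.Agent.S22 Fermat.Agent.S21
open Fermat.Agent.S23.Transfer
open scoped MatrixGroups ModularForm
open P2MW.S_ModularForm_heckeT_slash_eq_self_of_mem_Gamma0.ModularForm.HeckeSlashInvariance

variable {N : ℕ}

/-- the embedding of `Γ₀(N)` into `GL₂(ℝ)` -/
noncomputable def emb (N : ℕ) : ↥(Gamma0 N) →* GL (Fin 2) ℝ :=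
  (Matrix.SpecialLinearGroup.mapGL ℝ).comp (Gamma0 N).subtype

theorem emb_apply (γ : ↥(Gamma0 N)) :
    emb N γ = Matrix.SpecialLinearGroup.mapGL ℝ (γ : SL(2, ℤ)) := rfl

theorem emb_injective : Function.Injective (emb N) :=
  Matrix.SpecialLinearGroup.mapGL_injective.comp Subtype.val_injective

/-- integer matrices from `GL₂(ℝ)` equations -/
theorem intMat_eq_of_gl {p : ℕ} (hp : p ≠ 0) {x y : OnePoint (ZMod p)} {g : SL(2, ℤ)}
    (h : heckeRep p x = Matrix.SpecialLinearGroup.mapGL ℝ g * heckeRep p y) :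
    repMat p x = (g : Matrix (Fin 2) (Fin 2) ℤ) * repMat p y := by
  have h1 := congrArg (fun g : GL (Fin 2) ℝ => (g : Matrix (Fin 2) (Fin 2) ℝ)) h
  simp only [Matrix.GeneralLinearGroup.coe_mul, heckeRep_val hp,
    Matrix.SpecialLinearGroup.mapGL_coe_matrix] at h1
  have hinj : Function.Injective (fun M : Matrix (Fin 2) (Fin 2) ℤ => M.map (Int.cast : ℤ → ℝ)) :=
    Matrix.map_injective Int.cast_injective
  apply hinj
  simp only
  have e2 : ((g : Matrix (Fin 2) (Fin 2) ℤ) * repMat p y).map (Int.cast : ℤ → ℝ) =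
      (g : Matrix (Fin 2) (Fin 2) ℤ).map (Int.cast : ℤ → ℝ) * (repMat p y).map (Int.cast : ℤ → ℝ) :=
    Matrix.map_mul (f := Int.castRingHom ℝ)
  rw [e2]
  exact h1

theorem det_eq' (g : SL(2, ℤ)) : g 0 0 * g 1 1 - g 0 1 * g 1 0 = 1 := by
  have := g.det_coe
  rw [Matrix.det_fin_two] at this
  exact this

/-- the cosets are pairwise distinct -/
theorem heckeRep_sep {p : ℕ} (hp : 2 ≤ p) (x y : OnePoint (ZMod p)) (g : SL(2, ℤ))
    (h : heckeRep p x = Matrix.SpecialLinearGroup.mapGL ℝ g * heckeRep p y) : x = y := by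
  have hp0 : p ≠ 0 := by omega
  have hm := intMat_eq_of_gl hp0 h
  have hdet := det_eq' g
  have h00 := congrFun (congrFun hm 0) 0
  have h10 := congrFun (congrFun hm 1) 0
  have h01 := congrFun (congrFun hm 0) 1
  have hnd : ¬ (p : ℤ) ∣ 1 := by
    intro hd
    have := Int.le_of_dvd one_pos hd
    omega
  induction x using OnePoint.rec with
  | infty =>
    induction y using OnePoint.rec with
    | infty => rfl
    | coe j =>
      exfalso
      simp [repMat, Matrix.mul_apply, Fin.sum_univ_two] at h00 h10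
      apply hnd
      refine ⟨g 1 1, ?_⟩
      linear_combination (-1 : ℤ) * hdet - (g 1 1) * h00 + (g 0 1) * h10
  | coe i =>
    induction y using OnePoint.rec with
    | infty =>
      exfalso
      simp [repMat, Matrix.mul_apply, Fin.sum_univ_two] at h00
      exact hnd ⟨g 0 0, by linear_combination h00⟩
    | coe j =>
      simp [repMat, Matrix.mul_apply, Fin.sum_univ_two] at h00 h01
      have hp' : NeZero p := ⟨hp0⟩
      have := congrArg (Int.cast : ℤ → ZMod p) h01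
      rw [← h00] at this
      push_cast at this
      rw [ZMod.natCast_zmod_val, ZMod.natCast_zmod_val, ZMod.natCast_self, mul_zero, add_zero,
        one_mul] at this
      rw [this]


/-- coset data for `T_p`, `p ∤ N` -/
theorem cosetData_T {p : ℕ} (hp : p.Prime) (hpN : ¬ p ∣ N) :
    CosetData (emb N) (heckeRep p) where
  inj := emb_injective
  perm γ x := by
    have : Fact p.Prime := ⟨hp⟩
    obtain ⟨g', hg', hmul⟩ := heckeRep_mul hpN (γ : SL(2, ℤ)) (dvd_of_mem_Gamma0 γ.2) x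
    exact ⟨redMatrix p (γ : SL(2, ℤ)) • x, ⟨g', mem_Gamma0_of_dvd hg'⟩, hmul⟩
  sep x y g h := heckeRep_sep hp.two_le x y g h

/-- coset data for `U_q`, `q ∣ N` -/
theorem cosetData_U {q : ℕ} (hq : q.Prime) (hqN : q ∣ N) :
    CosetData (emb N) (fun x : ZMod q => heckeRep q (x : OnePoint (ZMod q))) where
  inj := emb_injective
  perm γ x := by
    have : NeZero q := ⟨hq.ne_zero⟩
    have hdvd : (q : ℤ) ∣ (γ : SL(2, ℤ)) 1 0 :=
      (Int.natCast_dvd_natCast.mpr hqN).trans (dvd_of_mem_Gamma0 γ.2)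
    obtain ⟨g', hg', hmul⟩ := heckeMatrix_mul_of_dvd (γ : SL(2, ℤ)) hdvd x
    refine ⟨_, ⟨g', mem_Gamma0_of_dvd ?_⟩, hmul⟩
    rw [hg']
    exact dvd_mul_of_dvd_right (dvd_of_mem_Gamma0 γ.2) _
  sep x y g h := by
    have := heckeRep_sep hq.two_le _ _ g h
    exact OnePoint.coe_injective this

/-! ### Conjugation by `diag(1, -1)` -/

/-- `J = diag(1, -1)` -/
noncomputable def Jmat : GL (Fin 2) ℝ :=
  ⟨!![1, 0; 0, -1], !![1, 0; 0, -1],
    by ext i j; fin_cases i <;> fin_cases j <;> simp [Matrix.mul_apply, Fin.sum_univ_two],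
    by ext i j; fin_cases i <;> fin_cases j <;> simp [Matrix.mul_apply, Fin.sum_univ_two]⟩

theorem Jmat_val : (Jmat : Matrix (Fin 2) (Fin 2) ℝ) = !![1, 0; 0, -1] := rfl

theorem Jmat_mul_self : Jmat * Jmat = 1 := by
  apply Units.ext
  rw [Units.val_mul, Jmat_val]
  ext i j; fin_cases i <;> fin_cases j <;> simp [Matrix.mul_apply, Fin.sum_univ_two]

theorem Jmat_inv : Jmat⁻¹ = Jmat := inv_eq_of_mul_eq_one_left Jmat_mul_self

/-- conjugation by `J` -/
noncomputable def conjJ : GL (Fin 2) ℝ →* GL (Fin 2) ℝ := (MulAut.conj Jmat).toMonoidHom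

theorem conjJ_apply (g : GL (Fin 2) ℝ) : conjJ g = Jmat * g * Jmat := by
  show Jmat * g * Jmat⁻¹ = _
  rw [Jmat_inv]

theorem conjJ_conjJ (g : GL (Fin 2) ℝ) : conjJ (conjJ g) = g := by
  rw [conjJ_apply, conjJ_apply]
  calc Jmat * (Jmat * g * Jmat) * Jmat = (Jmat * Jmat) * g * (Jmat * Jmat) := by group
    _ = g := by rw [Jmat_mul_self, one_mul, mul_one]

theorem conjJ_val (g : GL (Fin 2) ℝ) :
    ((conjJ g : GL (Fin 2) ℝ) : Matrix (Fin 2) (Fin 2) ℝ) =
      !![(g : Matrix (Fin 2) (Fin 2) ℝ) 0 0, -(g : Matrix (Fin 2) (Fin 2) ℝ) 0 1;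
        -(g : Matrix (Fin 2) (Fin 2) ℝ) 1 0, (g : Matrix (Fin 2) (Fin 2) ℝ) 1 1] := by
  rw [conjJ_apply, Units.val_mul, Units.val_mul, Jmat_val]
  ext i j
  fin_cases i <;> fin_cases j <;>
    simp [Matrix.mul_apply, Fin.sum_univ_two, Matrix.vecMul, dotProduct]

theorem conjJ_emb (γ : ↥(Gamma0 N)) : conjJ (emb N γ) = emb N (jConjGamma0 N γ) := by
  apply Units.ext
  rw [conjJ_val, emb_apply, emb_apply, Matrix.SpecialLinearGroup.mapGL_coe_matrix,
    Matrix.SpecialLinearGroup.mapGL_coe_matrix]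
  ext i j
  fin_cases i <;> fin_cases j <;> simp [jConjMat]


/-- the translation `[[1, t], [0, 1]]` as an element of `Γ₀(N)` -/
def transl (N : ℕ) (t : ℤ) : ↥(Gamma0 N) :=
  ⟨⟨!![1, t; 0, 1], by simp [Matrix.det_fin_two]⟩,
    Gamma0_mem.mpr (by
      show (((!![1, t; 0, 1] : Matrix (Fin 2) (Fin 2) ℤ) 1 0 : ℤ) : ZMod N) = 0
      simp)⟩

theorem transl_val (t : ℤ) :
    (((transl N t : ↥(Gamma0 N)) : SL(2, ℤ)) : Matrix (Fin 2) (Fin 2) ℤ) = !![1, t; 0, 1] := rfl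

theorem emb_transl_val (t : ℤ) :
    ((emb N (transl N t) : GL (Fin 2) ℝ) : Matrix (Fin 2) (Fin 2) ℝ) = !![1, (t : ℝ); 0, 1] := by
  rw [emb_apply, Matrix.SpecialLinearGroup.mapGL_coe_matrix]
  ext a b
  fin_cases a <;> fin_cases b <;> simp [transl_val]

theorem conjJ_heckeRep_coe {p : ℕ} (hp : p ≠ 0) (j : ZMod p) :
    ∃ (j' : ZMod p) (τ : ↥(Gamma0 N)),
      conjJ (heckeRep p (j : OnePoint (ZMod p))) =
        emb N τ * heckeRep p (j' : OnePoint (ZMod p)) := by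
  have hp' : NeZero p := ⟨hp⟩
  obtain ⟨u, hu⟩ : (p : ℤ) ∣ (j.val : ℤ) + ((-j).val : ℤ) := by
    rw [← ZMod.intCast_zmod_eq_zero_iff_dvd]
    push_cast
    rw [ZMod.natCast_zmod_val, ZMod.natCast_zmod_val, add_neg_cancel]
  refine ⟨-j, transl N (-u), ?_⟩
  apply Units.ext
  rw [conjJ_val, Units.val_mul, emb_transl_val,
    heckeRep_coe, heckeRep_coe, val_heckeMatrix hp, val_heckeMatrix hp]
  have hR : ((j.val : ℤ) : ℝ) + (((-j).val : ℤ) : ℝ) = ((p : ℤ) : ℝ) * ((u : ℤ) : ℝ) := by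
    exact_mod_cast hu
  push_cast at hR
  rw [ZMod.natCast_val, ZMod.natCast_val] at hR
  ext a b
  fin_cases a <;> fin_cases b <;>
    simp [Matrix.mul_apply, Fin.sum_univ_two]
  linear_combination (-1 : ℝ) * hR

theorem conjJ_heckeRep {p : ℕ} (hp : p ≠ 0) (x : OnePoint (ZMod p)) :
    ∃ (x' : OnePoint (ZMod p)) (τ : ↥(Gamma0 N)),
      conjJ (heckeRep p x) = emb N τ * heckeRep p x' := by
  induction x using OnePoint.rec with
  | infty =>
    refine ⟨OnePoint.infty, 1, ?_⟩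
    rw [map_one, one_mul]
    apply Units.ext
    rw [conjJ_val, heckeRep_infty, val_heckeDiagMatrix hp]
    ext a b
    fin_cases a <;> fin_cases b <;> simp
  | coe j =>
    obtain ⟨j', τ, h⟩ := conjJ_heckeRep_coe (N := N) hp j
    exact ⟨j', τ, h⟩


/-! ### The operators -/

/-- integer valued homomorphisms -/
def IsInt (ψ : Additive ↥(Gamma0 N) →+ ℂ) : Prop := ∀ γ, ∃ m : ℤ, ψ γ = m

theorem IsInt.add {ψ φ : Additive ↥(Gamma0 N) →+ ℂ} (hψ : IsInt ψ) (hφ : IsInt φ) :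
    IsInt (ψ + φ) := by
  intro γ
  obtain ⟨a, ha⟩ := hψ γ
  obtain ⟨b, hb⟩ := hφ γ
  exact ⟨a + b, by rw [AddMonoidHom.add_apply, ha, hb]; push_cast; rfl⟩

theorem IsInt.zsmul {ψ : Additive ↥(Gamma0 N) →+ ℂ} (hψ : IsInt ψ) (n : ℤ) :
    IsInt (n • ψ) := by
  intro γ
  obtain ⟨a, ha⟩ := hψ γ
  exact ⟨n * a, by rw [AddMonoidHom.smul_apply, ha, zsmul_eq_mul]; push_cast; rfl⟩

theorem isInt_sum {X : Type*} (s : Finset X) (F : X → ℂ) (h : ∀ x, ∃ m : ℤ, F x = m) :
    ∃ m : ℤ, ∑ x ∈ s, F x = m := by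
  choose m hm using h
  exact ⟨∑ x ∈ s, m x, by push_cast; exact Finset.sum_congr rfl fun x _ => hm x⟩

/-- The three properties of a Hecke operator on homomorphisms lifting `t`. -/
def Lifts [NeZero N] (t : Module.End ℂ (CuspForm (Gamma0 N) 2))
    (B : Module.End ℂ (Additive ↥(Gamma0 N) →+ ℂ)) : Prop :=
  (∀ ψ, IsInt ψ → IsInt (B ψ)) ∧
    (∀ f, B (periodMap N f) = periodMap N (t f)) ∧
    ∀ ψ, B (charInvolution N ℂ ℂ ψ) = charInvolution N ℂ ℂ (B ψ)

variable [NeZero N]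

/-- The general construction from coset data. -/
theorem lifts_transfer {p : ℕ} (hp : p ≠ 0) {X : Type} [Fintype X] (r : X → OnePoint (ZMod p))
    (D : CosetData (emb N) (fun x => heckeRep p (r x)))
    (t : Module.End ℂ (CuspForm (Gamma0 N) 2))
    (ht : ∀ f : CuspForm (Gamma0 N) 2, (⇑(t f) : ℍ → ℂ) = ∑ x : X, (⇑f) ∣[(2 : ℤ)] heckeRep p (r x))
    (hconj : ∀ x, ∃ (x' : X) (τ : ↥(Gamma0 N)),
      conjJ (heckeRep p (r x)) = emb N τ * heckeRep p (r x')) :
    Lifts t (D.transferL ℂ) := by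
  refine ⟨fun ψ hψ γ => ?_, fun f => ?_, fun ψ => ?_⟩
  · obtain ⟨γ, rfl⟩ : ∃ γ' : ↥(Gamma0 N), Additive.ofMul γ' = γ := ⟨Additive.toMul γ, rfl⟩
    rw [CosetData.transferL_apply]
    exact isInt_sum _ _ fun x => hψ _
  · refine AddMonoidHom.ext fun γ => ?_
    obtain ⟨γ, rfl⟩ : ∃ γ' : ↥(Gamma0 N), Additive.ofMul γ' = γ := ⟨Additive.toMul γ, rfl⟩
    rw [CosetData.transferL_apply, periodMap_apply_eq_kappa (t f) γ ![1, 0]]
    have hk : (2 : ℤ) = ((0 : ℕ) : ℤ) + 2 := by norm_num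
    have key := kappa_hecke hk hp r (allGood_coe_cuspForm f) (ht f) (γ : SL(2, ℤ))
      (slash_eq_of_mem_Gamma0 (t f) γ.2) (D.permOf γ)
      (fun x => ((D.el γ x : ↥(Gamma0 N)) : SL(2, ℤ)))
      (fun x => slash_eq_of_mem_Gamma0 f (D.el γ x).2) (fun x => D.spec γ x)
    rw [key, Finset.sum_apply]
    refine Finset.sum_congr rfl fun x _ => ?_
    rw [act_apply, ← periodMap_apply_eq_kappa f (D.el γ x)]
  · refine AddMonoidHom.ext fun γ => ?_
    obtain ⟨γ, rfl⟩ : ∃ γ' : ↥(Gamma0 N), Additive.ofMul γ' = γ := ⟨Additive.toMul γ, rfl⟩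
    rw [CosetData.transferL_apply, charInvolution_apply, toMul_ofMul]
    have := D.transfer_conj (jConjGamma0 N) conjJ conjJ_emb conjJ_conjJ hconj
      ψ γ
    exact this.symm

theorem exists_lifts_T {p : ℕ} (hp : p.Prime) (hpN : ¬ p ∣ N) :
    ∃ B, Lifts (CuspForm.heckeTLin 2 hp hpN : Module.End ℂ (CuspForm (Gamma0 N) 2)) B := by
  have : NeZero p := ⟨hp.ne_zero⟩
  refine ⟨_, lifts_transfer hp.ne_zero (fun x : OnePoint (ZMod p) => x) (cosetData_T hp hpN) _
    (fun f => ?_) (fun x => conjJ_heckeRep hp.ne_zero x)⟩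
  rw [CuspForm.coe_heckeTLin_apply]
  exact heckeT_eq_sum_onePoint 2 ⇑f

theorem exists_lifts_U {q : ℕ} (hq : q.Prime) (hqN : q ∣ N) :
    ∃ B, Lifts (CuspForm.heckeULin 2 hqN : Module.End ℂ (CuspForm (Gamma0 N) 2)) B := by
  have : NeZero q := ⟨hq.ne_zero⟩
  refine ⟨_, lifts_transfer hq.ne_zero (fun x : ZMod q => (x : OnePoint (ZMod q)))
    (cosetData_U hq hqN) _ (fun f => ?_) (fun x => conjJ_heckeRep_coe hq.ne_zero x)⟩
  rw [CuspForm.coe_heckeULin_apply]
  exact heckeU_eq_sum_zmod 2 ⇑f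


/-! ### Closure under the algebra operations -/

omit [NeZero N] in
theorem isInt_zero : IsInt (0 : Additive ↥(Gamma0 N) →+ ℂ) := fun _ => ⟨0, by simp⟩

theorem periodMap_add (f g : CuspForm (Gamma0 N) 2) :
    periodMap N (f + g) = periodMap N f + periodMap N g := (periodLin N).map_add f g

theorem periodMap_smul (c : ℂ) (f : CuspForm (Gamma0 N) 2) :
    periodMap N (c • f) = c • periodMap N f := (periodLin N).map_smul c f

theorem periodMap_zsmul (n : ℤ) (f : CuspForm (Gamma0 N) 2) :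
    periodMap N (n • f) = n • periodMap N f := map_zsmul (periodLin N) n f

theorem Lifts.add {t t' : Module.End ℂ (CuspForm (Gamma0 N) 2)}
    {B B' : Module.End ℂ (Additive ↥(Gamma0 N) →+ ℂ)} (h : Lifts t B) (h' : Lifts t' B') :
    Lifts (t + t') (B + B') := by
  refine ⟨fun ψ hψ => ?_, fun f => ?_, fun ψ => ?_⟩
  · rw [LinearMap.add_apply]
    exact (h.1 ψ hψ).add (h'.1 ψ hψ)
  · rw [LinearMap.add_apply, LinearMap.add_apply, h.2.1, h'.2.1, periodMap_add]
  · rw [LinearMap.add_apply, LinearMap.add_apply, h.2.2, h'.2.2, map_add]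

theorem Lifts.mul {t t' : Module.End ℂ (CuspForm (Gamma0 N) 2)}
    {B B' : Module.End ℂ (Additive ↥(Gamma0 N) →+ ℂ)} (h : Lifts t B) (h' : Lifts t' B') :
    Lifts (t * t') (B * B') := by
  refine ⟨fun ψ hψ => ?_, fun f => ?_, fun ψ => ?_⟩
  · rw [Module.End.mul_apply]
    exact h.1 _ (h'.1 ψ hψ)
  · rw [Module.End.mul_apply, Module.End.mul_apply, h'.2.1, h.2.1]
  · rw [Module.End.mul_apply, Module.End.mul_apply, h'.2.2, h.2.2]

theorem Lifts.ofInt (n : ℤ) :
    Lifts (algebraMap ℤ (Module.End ℂ (CuspForm (Gamma0 N) 2)) n)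
      (algebraMap ℤ (Module.End ℂ (Additive ↥(Gamma0 N) →+ ℂ)) n) := by
  have e1 : ∀ ψ : Additive ↥(Gamma0 N) →+ ℂ,
      algebraMap ℤ (Module.End ℂ (Additive ↥(Gamma0 N) →+ ℂ)) n ψ = n • ψ := by
    intro ψ
    rw [Algebra.algebraMap_eq_smul_one, LinearMap.smul_apply, Module.End.one_apply]
  have e2 : ∀ f : CuspForm (Gamma0 N) 2,
      algebraMap ℤ (Module.End ℂ (CuspForm (Gamma0 N) 2)) n f = n • f := by
    intro f
    rw [Algebra.algebraMap_eq_smul_one, LinearMap.smul_apply, Module.End.one_apply]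
  refine ⟨fun ψ hψ => ?_, fun f => ?_, fun ψ => ?_⟩
  · rw [e1]
    exact hψ.zsmul n
  · rw [e1, e2, periodMap_zsmul]
  · rw [e1, e1, map_zsmul]

/-- **Hecke operators on homomorphisms**: every element of the Hecke algebra has a lift. -/
theorem exists_lifts_of_mem {S : Set ℕ} {t : Module.End ℂ (CuspForm (Gamma0 N) 2)}
    (ht : t ∈ CuspForm.heckeAlgebra N 2 S) : ∃ B, Lifts t B := by
  induction ht using Algebra.adjoin_induction with
  | mem T hT =>
    rcases hT with ⟨ℓ, hℓ, hℓN, -, rfl⟩ | ⟨q, hqN, hq, -, rfl⟩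
    · exact exists_lifts_T hℓ hℓN
    · exact exists_lifts_U hq hqN
  | algebraMap n => exact ⟨_, Lifts.ofInt n⟩
  | add t t' _ _ h h' =>
    obtain ⟨B, hB⟩ := h
    obtain ⟨B', hB'⟩ := h'
    exact ⟨_, hB.add hB'⟩
  | mul t t' _ _ h h' =>
    obtain ⟨B, hB⟩ := h
    obtain ⟨B', hB'⟩ := h'
    exact ⟨_, hB.mul hB'⟩

theorem periodHomPair_eq (f g : CuspForm (Gamma0 N) 2) :
    periodHomPair N (f, g) =
      (periodMap N f + charInvolution N ℂ ℂ (periodMap N f)) +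
        (periodMap N g - charInvolution N ℂ ℂ (periodMap N g)) := by
  refine AddMonoidHom.ext fun γ => ?_
  obtain ⟨γ, rfl⟩ : ∃ γ' : ↥(Gamma0 N), Additive.ofMul γ' = γ := ⟨Additive.toMul γ, rfl⟩
  rw [periodHomPair_apply]
  simp only [AddMonoidHom.add_apply, AddMonoidHom.sub_apply, charInvolution_apply, toMul_ofMul]

theorem Lifts.periodHomPair {t : Module.End ℂ (CuspForm (Gamma0 N) 2)}
    {B : Module.End ℂ (Additive ↥(Gamma0 N) →+ ℂ)} (h : Lifts t B)
    (f g : CuspForm (Gamma0 N) 2) :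
    B (periodHomPair N (f, g)) = periodHomPair N (t f, t g) := by
  rw [periodHomPair_eq, periodHomPair_eq, map_add, map_add, map_sub, h.2.2, h.2.2, h.2.1, h.2.1]

/-- **S23 (d)**: for every `t` in the Hecke algebra there is an operator `B` on
`Hom(Γ₀(N), ℂ)` preserving integrality, commuting with the involution and intertwining the
period maps. -/
theorem exists_heckeHom {S : Set ℕ} {t : Module.End ℂ (CuspForm (Gamma0 N) 2)}
    (ht : t ∈ CuspForm.heckeAlgebra N 2 S) :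
    ∃ B : Module.End ℂ (Additive ↥(Gamma0 N) →+ ℂ),
      (∀ ψ : Additive ↥(Gamma0 N) →+ ℂ, (∀ γ, ∃ m : ℤ, ψ γ = m) → ∀ γ, ∃ m : ℤ, B ψ γ = m) ∧
      (∀ f, B (periodMap N f) = periodMap N (t f)) ∧
      (∀ ψ, B (charInvolution N ℂ ℂ ψ) = charInvolution N ℂ ℂ (B ψ)) ∧
      ∀ f g, B (periodHomPair N (f, g)) = periodHomPair N (t f, t g) := by
  obtain ⟨B, hB⟩ := exists_lifts_of_mem ht
  exact ⟨B, hB.1, hB.2.1, hB.2.2, hB.periodHomPair⟩

end Fermat.Agent.S23.HeckeLift
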