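import Mathlib
import Fermat.Prelude.Def_ModularCurve_PeriodMap
import Fermat.Agent.S22.GroupFG

/-!
# S23: integer-valued homomorphisms span

For a finitely generated group `Γ`, every homomorphism `φ : Γ → ℂ` is a finite `ℂ`-linear
combination of integer-valued homomorphisms which vanish wherever `φ` vanishes.  In particular
the space of parabolic homomorphisms of `Γ₀(N)` is spanned by its integer-valued elements.
-/

set_option autoImplicit false

namespace Fermat.Agent.S23.HomLattice

open CongruenceSubgroup ModularCurve.Period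
open scoped MatrixGroups

section Generic

variable {Γ : Type*} [Group Γ]

/-- The integer-valued homomorphisms. -/
def IntValued (ψ : Additive Γ →+ ℂ) : Prop := ∀ γ, ∃ m : ℤ, ψ γ = (m : ℂ)

/-- **Coordinates**: a homomorphism from a finitely generated group to `ℂ` is a finite
combination of integer-valued homomorphisms, each vanishing wherever the given one does. -/
theorem exists_intValued_decomp [Group.FG Γ] (φ : Additive Γ →+ ℂ) :
    ∃ (r : ℕ) (ω : Fin r → ℂ) (ψ : Fin r → (Additive Γ →+ ℂ)),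
      (∀ i, IntValued (ψ i)) ∧ (∀ γ, φ γ = 0 → ∀ i, ψ i γ = 0) ∧
      φ = ∑ i, ω i • ψ i := by
  have : AddGroup.FG (Additive Γ) := AddGroup.fg_iff_mul_fg.mpr inferInstance
  have : AddGroup.FG φ.range := inferInstance
  have : Module.Finite ℤ φ.range := Module.Finite.iff_addGroup_fg.mpr inferInstance
  have : Module.IsTorsionFree ℤ φ.range :=
    Function.Injective.moduleIsTorsionFree (φ.range.subtype : φ.range →+ ℂ)
      Subtype.val_injective (fun _ _ => rfl)
  obtain ⟨r, b⟩ := Module.basisOfFiniteTypeTorsionFree' (R := ℤ) (M := φ.range)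
  let coord : Fin r → (φ.range →+ ℤ) := fun i => (b.coord i).toAddMonoidHom
  let ψ : Fin r → (Additive Γ →+ ℂ) := fun i =>
    (Int.castAddHom ℂ).comp ((coord i).comp φ.rangeRestrict)
  refine ⟨r, fun i => ((b i : φ.range) : ℂ), ψ, fun i γ => ⟨coord i (φ.rangeRestrict γ), rfl⟩,
    fun γ hγ i => ?_, ?_⟩
  · have h0 : φ.rangeRestrict γ = 0 := Subtype.ext hγ
    simp only [ψ, AddMonoidHom.comp_apply, h0, map_zero]
  · refine AddMonoidHom.ext fun γ => ?_
    have h := b.sum_repr (φ.rangeRestrict γ)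
    have h2 := congrArg (fun a : φ.range => (a : ℂ)) h
    simp only [AddSubgroup.val_finsetSum, AddSubgroup.coe_zsmul, zsmul_eq_mul] at h2
    rw [AddMonoidHom.finsetSum_apply]
    simp only [AddMonoidHom.smul_apply, smul_eq_mul, ψ, AddMonoidHom.comp_apply,
      Int.coe_castAddHom]
    rw [show φ γ = ((φ.rangeRestrict γ : φ.range) : ℂ) from rfl, ← h2]
    refine Finset.sum_congr rfl fun i _ => ?_
    simp only [coord, LinearMap.toAddMonoidHom_coe, Module.Basis.coord_apply]
    ring

/-- Every homomorphism vanishing on `P` is in the span of the integer-valued homomorphisms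
vanishing on `P`. -/
theorem mem_span_intValued [Group.FG Γ] (P : Set Γ) (φ : Additive Γ →+ ℂ)
    (hφ : ∀ γ ∈ P, φ (Additive.ofMul γ) = 0) :
    φ ∈ Submodule.span ℂ {ψ : Additive Γ →+ ℂ |
      (∀ γ, ∃ m : ℤ, ψ γ = (m : ℂ)) ∧ ∀ γ ∈ P, ψ (Additive.ofMul γ) = 0} := by
  obtain ⟨r, ω, ψ, hint, hvan, rfl⟩ := exists_intValued_decomp φ
  refine Submodule.sum_mem _ fun i _ => Submodule.smul_mem _ _ (Submodule.subset_span ?_)
  exact ⟨hint i, fun γ hγ => hvan _ (hφ γ hγ) i⟩

end Generic

/-- **The parabolic homomorphisms are spanned by the integer-valued ones.** -/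
theorem parabolicHoms_le_span (N : ℕ) [NeZero N] :
    parabolicHoms ℂ (Gamma0 N) ℂ ≤
      Submodule.span ℂ ({ψ : Additive (Gamma0 N) →+ ℂ | ∀ γ, ∃ m : ℤ, ψ γ = (m : ℂ)} ∩
        (parabolicHoms ℂ (Gamma0 N) ℂ : Set (Additive (Gamma0 N) →+ ℂ))) := by
  intro φ hφ
  have : Group.FG (Gamma0 N) := Fermat.Agent.S22.gamma0_fg N
  rw [mem_parabolicHoms_iff] at hφ
  have h := mem_span_intValued
    {γ : Gamma0 N | ((γ : SL(2, ℤ)) : Matrix (Fin 2) (Fin 2) ℤ).trace ^ 2 = 4} φ
    (fun γ hγ => hφ γ hγ)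
  refine Submodule.span_mono ?_ h
  rintro ψ ⟨h1, h2⟩
  exact ⟨h1, fun γ hγ => h2 γ hγ⟩

end Fermat.Agent.S23.HomLattice
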