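import Mathlib

/-!
# S23: linear algebra over `ℤ ⊂ ℂ`

* `exists_int_relation` : integer vectors satisfying a nontrivial `ℂ`-linear relation satisfy a
  nontrivial `ℤ`-linear relation.
* `linearIndependent_complex_of_int` : `ℤ`-independent integer vectors are `ℂ`-independent.
* `exists_int_relation_of_operators` : the same for operators preserving an integral structure.
* `span_dual_lattice_eq_top` : the dual lattice lemma.
-/

set_option autoImplicit false

namespace Fermat.Agent.S23.LinAlg

open Module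

section Relation

variable {ι : Type*} [Fintype ι] {X : Type*}

/-- A rational relation can be cleared of denominators. -/
theorem exists_int_of_rat (q : ι → ℚ) (hq : q ≠ 0) :
    ∃ (n : ι → ℤ) (D : ℤ), D ≠ 0 ∧ n ≠ 0 ∧ ∀ i, (n i : ℚ) = D * q i := by
  classical
  obtain ⟨b, hb⟩ := IsLocalization.exist_integer_multiples (nonZeroDivisors ℤ)
    (Finset.univ : Finset ι) q
  have hb0 : (b : ℤ) ≠ 0 := nonZeroDivisors.coe_ne_zero b
  choose! n hn using hb
  refine ⟨n, b, hb0, ?_, fun i => ?_⟩
  · intro h0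
    apply hq
    funext i
    have h1 := hn i (Finset.mem_univ i)
    rw [h0] at h1
    simp only [Pi.zero_apply, map_zero] at h1
    have h2 : ((b : ℤ) : ℚ) * q i = 0 := by
      rw [h1]
      simp [Algebra.smul_def]
    rcases mul_eq_zero.mp h2 with h3 | h3
    · exact absurd (by exact_mod_cast h3) hb0
    · exact h3
  · have h1 := hn i (Finset.mem_univ i)
    simpa [Algebra.smul_def] using h1

/-- Integer vectors satisfying a nontrivial `ℂ`-linear relation satisfy a nontrivial `ℤ`-linear
relation. -/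
theorem exists_int_relation (a : ι → X → ℤ) (c : ι → ℂ) (hc : c ≠ 0)
    (h : ∀ x, ∑ i, c i * (a i x : ℂ) = 0) :
    ∃ n : ι → ℤ, n ≠ 0 ∧ ∀ x, ∑ i, n i * a i x = 0 := by
  classical
  let b := Basis.ofVectorSpace ℚ ℂ
  obtain ⟨i₀, hi₀⟩ : ∃ i, c i ≠ 0 := by
    by_contra hne
    exact hc (funext fun i => not_not.mp (not_exists.mp hne i))
  obtain ⟨β, hβ⟩ : ∃ β, b.repr (c i₀) β ≠ 0 := by
    by_contra hne
    apply hi₀
    have h0 : b.repr (c i₀) = 0 := Finsupp.ext fun β => not_not.mp (not_exists.mp hne β)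
    exact (LinearEquiv.map_eq_zero_iff b.repr).mp h0
  let q : ι → ℚ := fun i => b.repr (c i) β
  have hq0 : q ≠ 0 := fun h0 => hβ (congrFun h0 i₀)
  have hq : ∀ x, ∑ i, q i * (a i x : ℚ) = 0 := by
    intro x
    have h1 : ∀ i, c i * (a i x : ℂ) = (a i x : ℚ) • c i := by
      intro i
      rw [Algebra.smul_def, mul_comm]
      simp
    have h2 := congrArg (fun z => b.repr z β) (h x)
    simp only [h1, map_sum, map_smul, map_zero, Finsupp.coe_finsetSum, Finset.sum_apply,
      Finsupp.coe_smul, Pi.smul_apply, smul_eq_mul, Finsupp.coe_zero, Pi.zero_apply] at h2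
    rw [← h2]
    exact Finset.sum_congr rfl fun i _ => mul_comm _ _
  obtain ⟨n, D, hD, hn0, hn⟩ := exists_int_of_rat q hq0
  refine ⟨n, hn0, fun x => ?_⟩
  have h3 : ((∑ i, n i * a i x : ℤ) : ℚ) = 0 := by
    push_cast
    calc ∑ i, (n i : ℚ) * (a i x : ℚ) = ∑ i, D * (q i * (a i x : ℚ)) :=
          Finset.sum_congr rfl fun i _ => by rw [hn i]; ring
      _ = D * ∑ i, q i * (a i x : ℚ) := by rw [Finset.mul_sum]
      _ = 0 := by rw [hq x, mul_zero]
  exact_mod_cast h3

/-- `ℤ`-linearly independent integer vectors are `ℂ`-linearly independent. -/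
theorem linearIndependent_complex_of_int {κ : Type*} (a : κ → X → ℤ)
    (h : LinearIndependent ℤ a) :
    LinearIndependent ℂ (fun i x => (a i x : ℂ)) := by
  classical
  rw [linearIndependent_iff']
  intro s g hg i hi
  by_contra hne
  -- restrict to the finite set `s`
  have hc : (fun j : s => g j) ≠ 0 := fun h0 => hne (congrFun h0 ⟨i, hi⟩)
  have hrel : ∀ x, ∑ j : s, g j * ((a j x : ℤ) : ℂ) = 0 := by
    intro x
    have h1 := congrFun hg x
    simp only [Finset.sum_apply, Pi.smul_apply, smul_eq_mul, Pi.zero_apply] at h1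
    rw [← h1]
    exact (Finset.sum_coe_sort s fun j => g j * ((a j x : ℤ) : ℂ))
  obtain ⟨n, hn0, hn⟩ := exists_int_relation (fun j : s => a j) (fun j : s => g j) hc hrel
  apply hn0
  have hli := h.comp (fun j : s => (j : κ)) Subtype.val_injective
  rw [Fintype.linearIndependent_iff] at hli
  funext j
  apply hli n
  funext x
  have := hn x
  simpa [Finset.sum_apply] using this

end Relation

section Operators

variable {ι : Type*} [Fintype ι] {X : Type*} {E : Type*} [AddCommGroup E] [Module ℂ E]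

/-- **(LAT)** If a `ℂ`-linear combination of operators preserving an integral structure vanishes
on a subspace spanned by integral elements, then so does a nontrivial `ℤ`-linear combination. -/
theorem exists_int_relation_of_operators (ev : E →ₗ[ℂ] (X → ℂ)) (hev : Function.Injective ev)
    (B : ι → E →ₗ[ℂ] E)
    (hB : ∀ i, ∀ ψ : E, (∀ x, ∃ m : ℤ, ev ψ x = m) → ∀ x, ∃ m : ℤ, ev (B i ψ) x = m)
    (R : Submodule ℂ E)
    (hR : R ≤ Submodule.span ℂ {ψ : E | ψ ∈ R ∧ ∀ x, ∃ m : ℤ, ev ψ x = m})
    (c : ι → ℂ) (hc : c ≠ 0) (h : ∀ ψ ∈ R, ∑ i, c i • B i ψ = 0) :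
    ∃ n : ι → ℤ, n ≠ 0 ∧ ∀ ψ ∈ R, ∑ i, (n i : ℂ) • B i ψ = 0 := by
  classical
  -- the integral elements of `R`
  let Λ : Set E := {ψ : E | ψ ∈ R ∧ ∀ x, ∃ m : ℤ, ev ψ x = m}
  -- integer values
  have hint : ∀ i, ∀ ψ : Λ, ∀ x, ∃ m : ℤ, ev (B i ψ.1) x = m := fun i ψ x => hB i ψ.1 ψ.2.2 x
  choose a ha using hint
  have hrel : ∀ p : Λ × X, ∑ i, c i * ((a i p.1 p.2 : ℤ) : ℂ) = 0 := by
    rintro ⟨ψ, x⟩
    have h1 := congrArg (fun φ => ev φ x) (h ψ.1 ψ.2.1)
    simp only [map_sum, map_smul, Finset.sum_apply, Pi.smul_apply, smul_eq_mul, map_zero,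
      Pi.zero_apply] at h1
    rw [← h1]
    exact Finset.sum_congr rfl fun i _ => by rw [ha i ψ x]
  obtain ⟨n, hn0, hn⟩ := exists_int_relation (fun i (p : Λ × X) => a i p.1 p.2) c hc hrel
  refine ⟨n, hn0, fun ψ hψ => ?_⟩
  -- the operator `∑ n i • B i` vanishes on `Λ`, hence on its span
  let L : E →ₗ[ℂ] E := ∑ i, (n i : ℂ) • B i
  have hL : ∀ φ, L φ = ∑ i, (n i : ℂ) • B i φ := fun φ => by
    simp [L, LinearMap.sum_apply]
  have hΛ : ∀ φ ∈ Λ, L φ = 0 := by
    intro φ hφ
    apply hev
    funext x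
    rw [hL]
    have h1 := hn (⟨φ, hφ⟩, x)
    simp only [map_sum, map_smul, Finset.sum_apply, Pi.smul_apply, smul_eq_mul, map_zero,
      Pi.zero_apply]
    have h2 : ((∑ i, n i * a i ⟨φ, hφ⟩ x : ℤ) : ℂ) = 0 := by rw [h1]; simp
    push_cast at h2
    rw [← h2]
    exact Finset.sum_congr rfl fun i _ => by rw [ha i ⟨φ, hφ⟩ x]
  have hker : Submodule.span ℂ Λ ≤ LinearMap.ker L :=
    Submodule.span_le.mpr fun φ hφ => hΛ φ hφ
  have := hker (hR hψ)
  rw [LinearMap.mem_ker, hL] at this
  exact this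

end Operators

section DualLattice

variable {V : Type*} [AddCommGroup V] [Module ℂ V] [FiniteDimensional ℂ V]

/-- **Dual lattice lemma.** Let `M` be a finitely generated `ℤ`-submodule of the dual of a
finite-dimensional complex vector space `V` which separates the points of `V` and in which
`ℤ`-independent families are `ℂ`-independent.  Then the vectors on which all elements of `M`
take integer values span `V`. -/
theorem span_dual_lattice_eq_top (M : Submodule ℤ (Module.Dual ℂ V)) (hfg : M.FG)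
    (hsep : ∀ f : V, (∀ l ∈ M, l f = 0) → f = 0)
    (hind : ∀ (r : ℕ) (l : Fin r → Module.Dual ℂ V), (∀ i, l i ∈ M) →
      LinearIndependent ℤ l → LinearIndependent ℂ l) :
    Submodule.span ℂ {f : V | ∀ l ∈ M, ∃ m : ℤ, l f = m} = ⊤ := by
  classical
  have : Module.Finite ℤ M := Module.Finite.iff_fg.mpr hfg
  obtain ⟨r, b⟩ : Σ n, Basis (Fin n) ℤ M := Module.basisOfFiniteTypeTorsionFree'
  -- the basis as a family of functionals
  let l : Fin r → Module.Dual ℂ V := fun i => (b i : Module.Dual ℂ V)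
  have hlM : ∀ i, l i ∈ M := fun i => (b i).2
  have hlZ : LinearIndependent ℤ l :=
    b.linearIndependent.map' M.subtype (Submodule.ker_subtype M)
  have hlC : LinearIndependent ℂ l := hind r l hlM hlZ
  -- every element of `M` is an integer combination of the `l i`
  have hrepr : ∀ m ∈ M, ∃ n : Fin r → ℤ, m = ∑ i, n i • l i := by
    intro m hm
    refine ⟨fun i => b.repr ⟨m, hm⟩ i, ?_⟩
    have h1 := b.sum_repr ⟨m, hm⟩
    have h2 := congrArg (fun x : M => (x : Module.Dual ℂ V)) h1
    simp only [Submodule.coe_sum, Submodule.coe_smul] at h2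
    exact h2.symm
  -- evaluation map
  let Ψ : V →ₗ[ℂ] (Fin r → ℂ) := LinearMap.pi fun i => l i
  have hΨ : ∀ f i, Ψ f i = l i f := fun f i => rfl
  have hΨinj : Function.Injective Ψ := by
    rw [← LinearMap.ker_eq_bot, LinearMap.ker_eq_bot']
    intro f hf
    apply hsep f
    intro m hm
    obtain ⟨n, rfl⟩ := hrepr m hm
    simp only [LinearMap.sum_apply, LinearMap.smul_apply]
    refine Finset.sum_eq_zero fun i _ => ?_
    have : l i f = 0 := by rw [← hΨ, hf]; rfl
    rw [this, smul_zero]
  have hdim1 : Module.finrank ℂ V ≤ r := by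
    have := LinearMap.finrank_le_finrank_of_injective hΨinj
    simpa using this
  have hdim2 : r ≤ Module.finrank ℂ V := by
    have := hlC.fintype_card_le_finrank
    rw [Subspace.dual_finrank_eq] at this
    simpa using this
  have hdim : Module.finrank ℂ V = Module.finrank ℂ (Fin r → ℂ) := by
    rw [Module.finrank_fin_fun]
    exact le_antisymm hdim1 hdim2
  have hΨsurj : Function.Surjective Ψ :=
    (LinearMap.injective_iff_surjective_of_finrank_eq_finrank hdim).mp hΨinj
  -- dual basis
  choose f hf using fun j : Fin r => hΨsurj (Pi.single j 1)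
  have hfl : ∀ i j, l i (f j) = if i = j then 1 else 0 := by
    intro i j
    rw [← hΨ, hf j, Pi.single_apply]
  have hfmem : ∀ j, f j ∈ {f : V | ∀ l ∈ M, ∃ m : ℤ, l f = m} := by
    intro j m hm
    obtain ⟨n, rfl⟩ := hrepr m hm
    refine ⟨n j, ?_⟩
    simp only [LinearMap.sum_apply, LinearMap.smul_apply, hfl]
    rw [Finset.sum_eq_single j]
    · simp
    · intro i _ hij
      simp [hij]
    · intro h
      exact absurd (Finset.mem_univ j) h
  rw [eq_top_iff]
  intro g _
  have hg : g = ∑ j, (l j g) • f j := by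
    apply hΨinj
    funext i
    rw [hΨ, map_sum]
    simp only [map_smul, Finset.sum_apply, Pi.smul_apply, hΨ, hfl, smul_eq_mul]
    rw [Finset.sum_eq_single i]
    · simp
    · intro j _ hji
      simp [Ne.symm hji]
    · intro h
      exact absurd (Finset.mem_univ i) h
  rw [hg]
  exact Submodule.sum_mem _ fun j _ => Submodule.smul_mem _ _ (Submodule.subset_span (hfmem j))

end DualLattice

end Fermat.Agent.S23.LinAlg
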